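import Fermat.Agent.BaseChangeFF.Transfer

/-!
# Gauss extension of a valuation ring to a base change of a function field

`K₀ ⊆ K`, `A ⊇ K₀` a valuation ring of `K` with residue field `κ` (arbitrary), `F = K·F₀`,
`F₁ = κ·F₀`.  The Gauss valuation ring `O` of `F` has residue field `F₁`.
-/

set_option autoImplicit false

noncomputable section

open Module
open scoped TensorProduct

namespace Fermat.Agent.AVG

open Fermat.Agent.BaseChangeFF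

variable (K₀ K κ : Type*) [Field K₀] [Field K] [Algebra K₀ K] [Field κ] [Algebra K₀ κ]

/-- a valuation ring of `K` containing `K₀` with residue field `κ`. -/
structure RDk where
  A : ValuationSubring K
  π : A →+* κ
  mem : ∀ c : K₀, algebraMap K₀ K c ∈ A
  π_alg : ∀ c : K₀, π ⟨algebraMap K₀ K c, mem c⟩ = algebraMap K₀ κ c
  surj : Function.Surjective π
  ker : ∀ a : A, π a = 0 ↔ ¬ IsUnit a

variable {K₀ K κ}

namespace RDk

variable (𝔯 : RDk K₀ K κ)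

/-- scaling of a nonzero vector -/
theorem exists_scale {ι : Type*} (c : ι →₀ K) (hc : c ≠ 0) :
    ∃ (j : ι) (d : ι →₀ 𝔯.A), c j ≠ 0 ∧ d j = 1 ∧ ∀ i, c i = c j * (d i : K) := by
  classical
  have hs : c.support.Nonempty := Finsupp.support_nonempty_iff.mpr hc
  obtain ⟨j, hj, hmax⟩ := Finset.exists_max_image c.support (fun i => 𝔯.A.valuation (c i)) hs
  have hj0 : c j ≠ 0 := Finsupp.mem_support_iff.mp hj
  have hmem : ∀ i, c i / c j ∈ 𝔯.A := by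
    intro i
    by_cases hi : c i = 0
    · rw [hi, zero_div]; exact zero_mem _
    · rw [← 𝔯.A.valuation_le_one_iff, map_div₀]
      exact div_le_one_of_le₀ (hmax i (Finsupp.mem_support_iff.mpr hi)) zero_le
  let d : ι →₀ 𝔯.A := Finsupp.onFinset c.support (fun i => ⟨c i / c j, hmem i⟩) (by
    intro i hi
    rw [Finsupp.mem_support_iff]
    intro h0
    apply hi
    ext
    simp [h0])
  refine ⟨j, d, hj0, ?_, ?_⟩
  · ext
    simp [d, hj0]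
  · intro i
    simp only [d, Finsupp.onFinset_apply]
    field_simp

/-- coordinates in `K` of a vector with coordinates in `A` -/
def up {ι : Type*} (d : ι →₀ 𝔯.A) : ι →₀ K := d.mapRange (fun a : 𝔯.A => (a : K)) rfl

/-- residues of a vector with coordinates in `A` -/
def dn {ι : Type*} (d : ι →₀ 𝔯.A) : ι →₀ κ := d.mapRange 𝔯.π (map_zero _)

@[simp] theorem up_apply {ι : Type*} (d : ι →₀ 𝔯.A) (i : ι) : 𝔯.up d i = (d i : K) := rfl
@[simp] theorem dn_apply {ι : Type*} (d : ι →₀ 𝔯.A) (i : ι) : 𝔯.dn d i = 𝔯.π (d i) := rfl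

/-- orthonormal bases. -/
theorem exists_echelon {ι : Type*} : ∀ (n : ℕ) (W : Submodule K (ι →₀ K)),
    FiniteDimensional K W → finrank K W = n →
    ∃ d : Fin n → (ι →₀ 𝔯.A), (∀ i, 𝔯.up (d i) ∈ W) ∧ LinearIndependent κ (fun i => 𝔯.dn (d i)) := by
  classical
  intro n
  induction n with
  | zero =>
    intro W _ _
    exact ⟨fun i => i.elim0, fun i => i.elim0, linearIndependent_empty_type⟩
  | succ n ih =>
    intro W hW hn
    have hne : W ≠ ⊥ := by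
      rintro rfl
      rw [finrank_bot] at hn
      omega
    obtain ⟨z, hz, hz0⟩ := Submodule.exists_mem_ne_zero_of_ne_bot hne
    obtain ⟨j, d, hj0, hdj, hd⟩ := 𝔯.exists_scale z hz0
    have hdW : 𝔯.up d ∈ W := by
      have : 𝔯.up d = (z j)⁻¹ • z := by
        ext i
        rw [up_apply, Finsupp.smul_apply, smul_eq_mul, hd i]
        field_simp
      rw [this]
      exact W.smul_mem _ hz
    -- the subspace of vectors with vanishing `j`-coordinate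
    let φ : W →ₗ[K] K := (Finsupp.lapply j : (ι →₀ K) →ₗ[K] K).comp W.subtype
    have hφ : Function.Surjective φ := by
      intro a
      refine ⟨a • ⟨𝔯.up d, hdW⟩, ?_⟩
      simp [φ, hdj]
    let W' : Submodule K (ι →₀ K) := (LinearMap.ker φ).map W.subtype
    have hW' : finrank K W' = n := by
      have h1 := LinearMap.finrank_range_add_finrank_ker (K := K) (V := W) (V₂ := K) φ
      rw [LinearMap.range_eq_top.mpr hφ, finrank_top, finrank_self, hn] at h1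
      have h2 : finrank K W' = finrank K (LinearMap.ker φ) :=
        LinearEquiv.finrank_eq
          (Submodule.equivMapOfInjective W.subtype W.injective_subtype _).symm
      omega
    have hkf : Module.Finite K (LinearMap.ker φ) :=
      FiniteDimensional.finiteDimensional_submodule (K := K) (V := W) (LinearMap.ker φ)
    have hW'fin : FiniteDimensional K W' := Module.Finite.map (LinearMap.ker φ) W.subtype
    obtain ⟨d', hd'W, hd'⟩ := ih W' hW'fin hW'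
    have hd'j : ∀ i, d' i j = 0 := by
      intro i
      obtain ⟨w, hw, hwe⟩ := hd'W i
      have h1 : (w : ι →₀ K) j = 0 := hw
      have h2 : (w : ι →₀ K) = 𝔯.up (d' i) := hwe
      rw [h2, up_apply] at h1
      exact Subtype.ext h1
    refine ⟨Fin.cons d d', ?_, ?_⟩
    · intro i
      refine Fin.cases ?_ (fun i => ?_) i
      · exact hdW
      · obtain ⟨w, hw, hwe⟩ := hd'W i
        rw [Fin.cons_succ, ← hwe]
        exact w.2
    · have : (fun i => 𝔯.dn (Fin.cons (α := fun _ => ι →₀ 𝔯.A) d d' i)) =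
          Fin.cons (α := fun _ => ι →₀ κ) (𝔯.dn d) (fun i => 𝔯.dn (d' i)) := by
        ext i : 1
        refine Fin.cases ?_ (fun i => ?_) i
        · rfl
        · rfl
      rw [this, linearIndependent_finCons]
      refine ⟨hd', fun hmem => ?_⟩
      have h1 : ∀ v ∈ Submodule.span κ (Set.range fun i => 𝔯.dn (d' i)), v j = 0 := by
        intro v hv
        induction hv using Submodule.span_induction with
        | mem v hv =>
          obtain ⟨i, rfl⟩ := hv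
          simp [hd'j]
        | zero => rfl
        | add a b _ _ ha hb => rw [Finsupp.add_apply, ha, hb, add_zero]
        | smul c a _ ha => rw [Finsupp.smul_apply, ha, smul_zero]
      have h2 := h1 _ hmem
      rw [dn_apply, hdj, map_one] at h2
      exact one_ne_zero h2

instance : Algebra K₀ 𝔯.A := ((algebraMap K₀ K).codRestrict 𝔯.A.toSubring 𝔯.mem).toAlgebra

theorem coe_alg (c : K₀) : ((algebraMap K₀ 𝔯.A c : 𝔯.A) : K) = algebraMap K₀ K c := rfl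

/-- the residue map as an algebra map -/
def πa : 𝔯.A →ₐ[K₀] κ where
  toRingHom := 𝔯.π
  commutes' c := 𝔯.π_alg c

theorem πa_apply (a : 𝔯.A) : 𝔯.πa a = 𝔯.π a := rfl

section Defs

variable (F₀ F F₁ : Type*) [Field F₀] [Algebra K₀ F₀]
  [Field F] [Algebra K F] [Algebra F₀ F] [Algebra K₀ F] [IsScalarTower K₀ K F]
  [IsScalarTower K₀ F₀ F]
  [Field F₁] [Algebra κ F₁] [Algebra F₀ F₁] [Algebra K₀ F₁] [IsScalarTower K₀ κ F₁]
  [IsScalarTower K₀ F₀ F₁]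

/-- constants of `A` in `F` -/
def cA : 𝔯.A →ₐ[K₀] F where
  toRingHom := (algebraMap K F).comp 𝔯.A.subtype
  commutes' c := by
    show algebraMap K F (algebraMap K₀ K c) = algebraMap K₀ F c
    rw [← IsScalarTower.algebraMap_apply]

/-- constants of `A` in `F₁` -/
def cB : 𝔯.A →ₐ[K₀] F₁ := (IsScalarTower.toAlgHom K₀ κ F₁).comp 𝔯.πa

/-- `A ⊗ F₀ → F` -/
def ψ : 𝔯.A ⊗[K₀] F₀ →ₐ[K₀] F :=
  Algebra.TensorProduct.lift (𝔯.cA F) (IsScalarTower.toAlgHom K₀ F₀ F) (fun _ _ => Commute.all _ _)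

/-- `A ⊗ F₀ → F₁` -/
def φ : 𝔯.A ⊗[K₀] F₀ →ₐ[K₀] F₁ :=
  Algebra.TensorProduct.lift (𝔯.cB F₁) (IsScalarTower.toAlgHom K₀ F₀ F₁)
    (fun _ _ => Commute.all _ _)

theorem ψ_tmul (a : 𝔯.A) (x : F₀) : 𝔯.ψ F₀ F (a ⊗ₜ x) = algebraMap K F (a : K) * algebraMap F₀ F x :=
  rfl

theorem φ_tmul (a : 𝔯.A) (x : F₀) :
    𝔯.φ F₀ F₁ (a ⊗ₜ x) = algebraMap κ F₁ (𝔯.π a) * algebraMap F₀ F₁ x :=
  rfl

end Defs

variable {F₀ : Type*} (F F₁ : Type*) [Field F₀] [Algebra K₀ F₀]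
  [Field F] [Algebra K F] [Algebra F₀ F] [Algebra K₀ F] [IsScalarTower K₀ K F]
  [IsScalarTower K₀ F₀ F]
  [Field F₁] [Algebra κ F₁] [Algebra F₀ F₁] [Algebra K₀ F₁] [IsScalarTower K₀ κ F₁]
  [IsScalarTower K₀ F₀ F₁]
  {ι : Type*} (b : Basis ι K₀ F₀)

/-- element of `A ⊗ F₀` with given coordinates -/
def elt (d : ι →₀ 𝔯.A) : 𝔯.A ⊗[K₀] F₀ := d.sum fun i a => a ⊗ₜ b i

theorem ψ_elt (d : ι →₀ 𝔯.A) : 𝔯.ψ F₀ F (𝔯.elt b d) = RD.Φ F b (𝔯.up d) := by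
  rw [elt, Finsupp.sum, map_sum, RD.Φ, Finsupp.linearCombination_apply, up,
    Finsupp.sum_mapRange_index (by simp), Finsupp.sum]
  refine Finset.sum_congr rfl fun i _ => ?_
  rw [ψ_tmul, Algebra.smul_def]

theorem φ_elt (d : ι →₀ 𝔯.A) : 𝔯.φ F₀ F₁ (𝔯.elt b d) = RD.Φ F₁ b (𝔯.dn d) := by
  rw [elt, Finsupp.sum, map_sum, RD.Φ, Finsupp.linearCombination_apply, dn,
    Finsupp.sum_mapRange_index (by simp), Finsupp.sum]
  refine Finset.sum_congr rfl fun i _ => ?_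
  rw [φ_tmul, Algebra.smul_def]

theorem elt_surjective (t : 𝔯.A ⊗[K₀] F₀) : ∃ d : ι →₀ 𝔯.A, 𝔯.elt b d = t := by
  induction t using TensorProduct.induction_on with
  | zero => exact ⟨0, by simp [elt]⟩
  | add x y hx hy =>
    obtain ⟨d, rfl⟩ := hx
    obtain ⟨e, rfl⟩ := hy
    classical
    refine ⟨d + e, ?_⟩
    rw [elt, Finsupp.sum_add_index' (by simp) (by intro i a b; rw [TensorProduct.add_tmul])]
    rfl
  | tmul a x =>
    refine ⟨(b.repr x).mapRange (fun c => a * algebraMap K₀ 𝔯.A c) (by simp), ?_⟩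
    rw [elt, Finsupp.sum_mapRange_index (by simp)]
    conv_rhs => rw [← b.linearCombination_repr x, Finsupp.linearCombination_apply, Finsupp.sum,
      TensorProduct.tmul_sum]
    refine Finset.sum_congr rfl fun i _ => ?_
    show (a * algebraMap K₀ 𝔯.A (b.repr x i)) ⊗ₜ[K₀] b i = a ⊗ₜ[K₀] (b.repr x i • b i)
    rw [TensorProduct.tmul_smul, TensorProduct.smul_tmul', Algebra.smul_def, mul_comm]

variable [hBC : BC K₀ K F₀ F] [hBC₁ : BC K₀ κ F₀ F₁]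

omit hBC₁ in
theorem ψ_injective : Function.Injective (𝔯.ψ F₀ F) := by
  rw [injective_iff_map_eq_zero]
  intro t ht
  let b := Module.Basis.ofVectorSpace K₀ F₀
  obtain ⟨d, rfl⟩ := 𝔯.elt_surjective b t
  rw [ψ_elt] at ht
  have h1 : 𝔯.up d = 0 := RD.Φ_injective F b (by rw [ht, map_zero])
  have h2 : d = 0 := by
    ext i
    have := DFunLike.congr_fun h1 i
    simpa using this
  rw [h2]; simp [elt]

omit hBC in
theorem φ_elt_ne_zero {d : ι →₀ 𝔯.A} (hd : 𝔯.dn d ≠ 0) : 𝔯.φ F₀ F₁ (𝔯.elt b d) ≠ 0 := by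
  rw [φ_elt]
  intro h0
  exact hd (RD.Φ_injective F₁ b (by rw [h0, map_zero]))

omit hBC in
/-- nonzero elements of `K·F₀` are primitive up to a constant. -/
theorem exists_primitive {z : F} (hz : z ∈ Submodule.span K (Set.range (algebraMap F₀ F)))
    (hz0 : z ≠ 0) : ∃ (c : K) (t : 𝔯.A ⊗[K₀] F₀), c ≠ 0 ∧ 𝔯.φ F₀ F₁ t ≠ 0 ∧
      z = algebraMap K F c * 𝔯.ψ F₀ F t := by
  let b := Module.Basis.ofVectorSpace K₀ F₀
  obtain ⟨w, rfl⟩ := RD.mem_range_Φ F b hz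
  have hw : w ≠ 0 := by
    rintro rfl
    exact hz0 (map_zero _)
  obtain ⟨j, d, hj0, hdj, hd⟩ := 𝔯.exists_scale w hw
  refine ⟨w j, 𝔯.elt b d, hj0, ?_, ?_⟩
  · apply φ_elt_ne_zero
    intro h1
    have h2 := DFunLike.congr_fun h1 j
    rw [dn_apply, hdj, map_one] at h2
    exact one_ne_zero h2
  · rw [ψ_elt, ← Algebra.smul_def, ← map_smul]
    congr 1
    ext i
    rw [hd i, Finsupp.smul_apply, up_apply, smul_eq_mul]

omit hBC₁ hBC in
theorem φ_ne_zero_of_mul {t u : 𝔯.A ⊗[K₀] F₀} (ht : 𝔯.φ F₀ F₁ t ≠ 0) (hu : 𝔯.φ F₀ F₁ u ≠ 0) :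
    𝔯.φ F₀ F₁ (t * u) ≠ 0 := by
  rw [map_mul]; exact mul_ne_zero ht hu

omit hBC₁ in
theorem ψ_ne_zero {t : 𝔯.A ⊗[K₀] F₀} (ht : 𝔯.φ F₀ F₁ t ≠ 0) : 𝔯.ψ F₀ F t ≠ 0 := by
  intro h0
  apply ht
  have : t = 0 := 𝔯.ψ_injective F (by rw [h0, map_zero])
  rw [this, map_zero]

variable (F₀) in
/-- **The Gauss valuation ring**. -/
def O : ValuationSubring F where
  carrier := {z | ∃ t u : 𝔯.A ⊗[K₀] F₀, 𝔯.φ F₀ F₁ u ≠ 0 ∧ z * 𝔯.ψ F₀ F u = 𝔯.ψ F₀ F t}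
  mul_mem' := by
    rintro z z' ⟨t, u, hu, h⟩ ⟨t', u', hu', h'⟩
    refine ⟨t * t', u * u', 𝔯.φ_ne_zero_of_mul F₁ hu hu', ?_⟩
    rw [map_mul, map_mul, ← h, ← h']; ring
  one_mem' := ⟨1, 1, by rw [map_one]; exact one_ne_zero, by simp⟩
  add_mem' := by
    rintro z z' ⟨t, u, hu, h⟩ ⟨t', u', hu', h'⟩
    refine ⟨t * u' + t' * u, u * u', 𝔯.φ_ne_zero_of_mul F₁ hu hu', ?_⟩
    rw [map_add, map_mul, map_mul, map_mul, ← h, ← h']; ring
  zero_mem' := ⟨0, 1, by rw [map_one]; exact one_ne_zero, by simp⟩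
  neg_mem' := by
    rintro z ⟨t, u, hu, h⟩
    exact ⟨-t, u, hu, by rw [map_neg, ← h]; ring⟩
  mem_or_inv_mem' := by
    intro z
    by_cases hz : z = 0
    · left; rw [hz]; exact ⟨0, 1, by rw [map_one]; exact one_ne_zero, by simp⟩
    obtain ⟨a, b, ha, hb, hb0, hab⟩ := hBC.gen z
    have ha0 : a ≠ 0 := by rw [← hab]; exact mul_ne_zero hz hb0
    obtain ⟨α, t, hα, ht, rfl⟩ := 𝔯.exists_primitive F F₁ ha ha0
    obtain ⟨β, u, hβ, hu, rfl⟩ := 𝔯.exists_primitive F F₁ hb hb0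
    have hβF : algebraMap K F β ≠ 0 := by simpa using hβ
    have hαF : algebraMap K F α ≠ 0 := by simpa using hα
    rcases 𝔯.A.mem_or_inv_mem (α / β) with h | h
    · left
      refine ⟨(⟨α / β, h⟩ : 𝔯.A) ⊗ₜ 1 * t, u, hu, ?_⟩
      rw [map_mul, ψ_tmul, map_one, mul_one, map_div₀]
      field_simp
      linear_combination hab
    · right
      rw [inv_div] at h
      refine ⟨(⟨β / α, h⟩ : 𝔯.A) ⊗ₜ 1 * u, t, ht, ?_⟩
      rw [map_mul, ψ_tmul, map_one, mul_one, map_div₀]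
      field_simp
      linear_combination -hab

theorem mem_O {z : F} : z ∈ 𝔯.O F₀ F F₁ ↔
    ∃ t u : 𝔯.A ⊗[K₀] F₀, 𝔯.φ F₀ F₁ u ≠ 0 ∧ z * 𝔯.ψ F₀ F u = 𝔯.ψ F₀ F t := Iff.rfl

variable {F F₁}

/-- residue as a function -/
def resFun (z : 𝔯.O F₀ F F₁) : F₁ :=
  𝔯.φ F₀ F₁ (z.2.choose) / 𝔯.φ F₀ F₁ (z.2.choose_spec.choose)

theorem resFun_eq {z : 𝔯.O F₀ F F₁} {t u : 𝔯.A ⊗[K₀] F₀} (hu : 𝔯.φ F₀ F₁ u ≠ 0)
    (h : (z : F) * 𝔯.ψ F₀ F u = 𝔯.ψ F₀ F t) : 𝔯.resFun z = 𝔯.φ F₀ F₁ t / 𝔯.φ F₀ F₁ u := by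
  set t' := z.2.choose with ht'
  set u' := z.2.choose_spec.choose with hu'
  have hu'0 : 𝔯.φ F₀ F₁ u' ≠ 0 := z.2.choose_spec.choose_spec.1
  have h' : (z : F) * 𝔯.ψ F₀ F u' = 𝔯.ψ F₀ F t' := z.2.choose_spec.choose_spec.2
  have h1 : t' * u = t * u' := by
    apply 𝔯.ψ_injective F
    rw [map_mul, map_mul, ← h, ← h']; ring
  have h2 := congrArg (𝔯.φ F₀ F₁) h1
  rw [map_mul, map_mul] at h2
  show 𝔯.φ F₀ F₁ t' / 𝔯.φ F₀ F₁ u' = _
  rw [div_eq_div_iff hu'0 hu, h2]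

/-- residue map -/
def res : 𝔯.O F₀ F F₁ →+* F₁ where
  toFun := 𝔯.resFun
  map_one' := by
    rw [𝔯.resFun_eq (t := 1) (u := 1) (by simp) (by simp)]; simp
  map_zero' := by
    rw [𝔯.resFun_eq (t := 0) (u := 1) (by simp) (by simp)]; simp
  map_mul' := by
    rintro ⟨z, t, u, hu, h⟩ ⟨z', t', u', hu', h'⟩
    rw [𝔯.resFun_eq (z := ⟨z, t, u, hu, h⟩) hu h, 𝔯.resFun_eq (z := ⟨z', t', u', hu', h'⟩) hu' h',
      𝔯.resFun_eq (t := t * t') (u := u * u') (𝔯.φ_ne_zero_of_mul F₁ hu hu')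
        (by
          show z * z' * _ = _
          rw [map_mul, map_mul, ← h, ← h']; ring)]
    rw [map_mul, map_mul]
    field_simp
  map_add' := by
    rintro ⟨z, t, u, hu, h⟩ ⟨z', t', u', hu', h'⟩
    rw [𝔯.resFun_eq (z := ⟨z, t, u, hu, h⟩) hu h, 𝔯.resFun_eq (z := ⟨z', t', u', hu', h'⟩) hu' h',
      𝔯.resFun_eq (t := t * u' + t' * u) (u := u * u') (𝔯.φ_ne_zero_of_mul F₁ hu hu')
        (by
          show (z + z') * _ = _
          rw [map_add, map_mul, map_mul, map_mul, ← h, ← h']; ring)]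
    rw [map_add, map_mul, map_mul, map_mul]
    field_simp

theorem res_eq {z : 𝔯.O F₀ F F₁} {t u : 𝔯.A ⊗[K₀] F₀} (hu : 𝔯.φ F₀ F₁ u ≠ 0)
    (h : (z : F) * 𝔯.ψ F₀ F u = 𝔯.ψ F₀ F t) : 𝔯.res z = 𝔯.φ F₀ F₁ t / 𝔯.φ F₀ F₁ u :=
  𝔯.resFun_eq hu h

theorem algebraMap_mem_O (y : F₀) : algebraMap F₀ F y ∈ 𝔯.O F₀ F F₁ :=
  ⟨1 ⊗ₜ y, 1, by simp, by rw [ψ_tmul]; simp⟩

theorem res_algebraMap' (y : F₀) :
    𝔯.res (⟨algebraMap F₀ F y, 𝔯.algebraMap_mem_O y⟩ : 𝔯.O F₀ F F₁) = algebraMap F₀ F₁ y := by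
  rw [𝔯.res_eq (t := 1 ⊗ₜ y) (u := 1) (by simp) (by rw [ψ_tmul]; simp), φ_tmul]
  simp

variable (F F₁)

theorem ψ_mem_O (t : 𝔯.A ⊗[K₀] F₀) : 𝔯.ψ F₀ F t ∈ 𝔯.O F₀ F F₁ :=
  ⟨t, 1, by rw [map_one]; exact one_ne_zero, by rw [map_one, mul_one]⟩

theorem res_ψ (t : 𝔯.A ⊗[K₀] F₀) : 𝔯.res ⟨𝔯.ψ F₀ F t, 𝔯.ψ_mem_O F F₁ t⟩ = 𝔯.φ F₀ F₁ t := by
  rw [𝔯.res_eq (t := t) (u := 1) (by rw [map_one]; exact one_ne_zero)
    (by rw [map_one, mul_one]), map_one, div_one]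

theorem algebraMap_mem_O_of_mem {a : K} (ha : a ∈ 𝔯.A) : algebraMap K F a ∈ 𝔯.O F₀ F F₁ :=
  ⟨⟨a, ha⟩ ⊗ₜ 1, 1, by simp, by rw [ψ_tmul]; simp⟩

theorem res_algebraMap_K {a : K} (ha : a ∈ 𝔯.A) :
    𝔯.res (⟨algebraMap K F a, 𝔯.algebraMap_mem_O_of_mem F F₁ ha⟩ : 𝔯.O F₀ F F₁) =
      algebraMap κ F₁ (𝔯.π ⟨a, ha⟩) := by
  rw [𝔯.res_eq (t := ⟨a, ha⟩ ⊗ₜ 1) (u := 1) (by simp) (by rw [ψ_tmul]; simp), φ_tmul]
  simp

theorem mem_iff (a : K) : algebraMap K F a ∈ 𝔯.O F₀ F F₁ ↔ a ∈ 𝔯.A := by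
  refine ⟨fun h => ?_, 𝔯.algebraMap_mem_O_of_mem F F₁⟩
  by_contra ha
  have ha0 : a ≠ 0 := fun h0 => ha (by rw [h0]; exact zero_mem _)
  have hinv : a⁻¹ ∈ 𝔯.A := (𝔯.A.mem_or_inv_mem a).resolve_left ha
  have h1 : 𝔯.π ⟨a⁻¹, hinv⟩ = 0 := by
    rw [𝔯.ker]
    intro hu
    obtain ⟨b, hb⟩ := hu.exists_right_inv
    have h2 : a⁻¹ * (b : K) = 1 := congrArg Subtype.val hb
    apply ha
    have h3 : a = b := by
      field_simp at h2
      exact h2.symm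
    rw [h3]; exact b.2
  have h2 := 𝔯.res_algebraMap_K (F₀ := F₀) F F₁ hinv
  rw [h1, map_zero] at h2
  have h3 : (⟨algebraMap K F a, h⟩ : 𝔯.O F₀ F F₁) *
      ⟨algebraMap K F a⁻¹, 𝔯.algebraMap_mem_O_of_mem F F₁ hinv⟩ = 1 := by
    apply Subtype.ext
    show algebraMap K F a * algebraMap K F a⁻¹ = 1
    rw [← map_mul, mul_inv_cancel₀ ha0, map_one]
  have h4 := congrArg 𝔯.res h3
  rw [map_mul, h2, mul_zero, map_one] at h4
  exact zero_ne_one h4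

theorem res_ker (f : 𝔯.O F₀ F F₁) : 𝔯.res f = 0 ↔ ¬ IsUnit f := by
  constructor
  · intro h0 hu
    have := hu.map 𝔯.res
    rw [h0] at this
    exact not_isUnit_zero this
  · intro hu
    by_contra h0
    apply hu
    obtain ⟨z, t, u, hu', h⟩ := f
    rw [𝔯.res_eq hu' h] at h0
    have ht : 𝔯.φ F₀ F₁ t ≠ 0 := by
      intro ht
      rw [ht, zero_div] at h0
      exact h0 rfl
    have hz : z ≠ 0 := by
      rintro rfl
      rw [zero_mul] at h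
      exact 𝔯.ψ_ne_zero F F₁ ht h.symm
    refine isUnit_iff_exists_inv.mpr ⟨⟨z⁻¹, u, t, ht, ?_⟩, ?_⟩
    · rw [← h]; field_simp
    · apply Subtype.ext
      exact mul_inv_cancel₀ hz

/-- common denominators -/
theorem exists_denominator (s : Finset F) : ∃ u : 𝔯.A ⊗[K₀] F₀, 𝔯.φ F₀ F₁ u ≠ 0 ∧
    ∀ z ∈ s, z * 𝔯.ψ F₀ F u ∈ Submodule.span K (Set.range (algebraMap F₀ F)) := by
  classical
  let b := Module.Basis.ofVectorSpace K₀ F₀
  have hψ : ∀ t : 𝔯.A ⊗[K₀] F₀, 𝔯.ψ F₀ F t ∈ Submodule.span K (Set.range (algebraMap F₀ F)) := by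
    intro t
    obtain ⟨d, rfl⟩ := 𝔯.elt_surjective b t
    rw [ψ_elt, RD.Φ, Finsupp.linearCombination_apply]
    refine Submodule.sum_mem _ fun i _ => Submodule.smul_mem _ _ (Submodule.subset_span ⟨_, rfl⟩)
  have hmul : ∀ z ∈ Submodule.span K (Set.range (algebraMap F₀ F)), ∀ t : 𝔯.A ⊗[K₀] F₀,
      z * 𝔯.ψ F₀ F t ∈ Submodule.span K (Set.range (algebraMap F₀ F)) := by
    intro z hz t
    by_cases hz0 : z = 0
    · rw [hz0, zero_mul]; exact Submodule.zero_mem _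
    obtain ⟨c, t', hc, ht', rfl⟩ := 𝔯.exists_primitive F F₁ hz hz0
    rw [mul_assoc, ← map_mul, ← Algebra.smul_def]
    exact Submodule.smul_mem _ _ (hψ _)
  induction s using Finset.induction_on with
  | empty => exact ⟨1, by simp, by simp⟩
  | insert z s hz ih =>
    obtain ⟨u, hu, hus⟩ := ih
    obtain ⟨a, b, ha, hb, hb0, hab⟩ := hBC.gen z
    obtain ⟨β, v, hβ, hv, rfl⟩ := 𝔯.exists_primitive F F₁ hb hb0
    have hβF : algebraMap K F β ≠ 0 := by simpa using hβ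
    refine ⟨v * u, 𝔯.φ_ne_zero_of_mul F₁ hv hu, ?_⟩
    intro w hw
    rw [Finset.mem_insert] at hw
    rcases hw with rfl | hw
    · have : w * 𝔯.ψ F₀ F (v * u) = (β⁻¹ • a) * 𝔯.ψ F₀ F u := by
        rw [map_mul, Algebra.smul_def, ← hab, map_inv₀]
        field_simp
      rw [this]
      exact hmul _ (Submodule.smul_mem _ _ ha) _
    · have : w * 𝔯.ψ F₀ F (v * u) = (w * 𝔯.ψ F₀ F u) * 𝔯.ψ F₀ F v := by
        rw [map_mul]; ring
      rw [this]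
      exact hmul _ (hus w hw) _

theorem lat (V : Submodule K F) (hV : FiniteDimensional K V) :
    ∃ e : Fin (finrank K V) → 𝔯.O F₀ F F₁, (∀ i, ((e i : 𝔯.O F₀ F F₁) : F) ∈ V) ∧
      LinearIndependent κ (fun i => 𝔯.res (e i)) := by
  classical
  obtain ⟨s, hs⟩ := (Module.Finite.iff_fg.mp hV)
  obtain ⟨u, hu, hus⟩ := 𝔯.exists_denominator (F₀ := F₀) F F₁ s
  have hψu : 𝔯.ψ F₀ F u ≠ 0 := 𝔯.ψ_ne_zero F F₁ hu
  let b := Module.Basis.ofVectorSpace K₀ F₀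
  -- the embedding
  let L : (Module.Basis.ofVectorSpaceIndex K₀ F₀ →₀ K) →ₗ[K] F :=
    (LinearMap.mulRight K (𝔯.ψ F₀ F u)⁻¹).comp (RD.Φ F b)
  have hL : ∀ c, L c = RD.Φ F b c * (𝔯.ψ F₀ F u)⁻¹ := fun c => rfl
  have hLinj : Function.Injective L := by
    intro c c' h
    rw [hL, hL] at h
    exact RD.Φ_injective F b (mul_right_cancel₀ (inv_ne_zero hψu) h)
  have hrange : V ≤ LinearMap.range L := by
    rw [← hs, Submodule.span_le]
    intro z hz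
    obtain ⟨c, hc⟩ := RD.mem_range_Φ F b (hus z hz)
    refine ⟨c, ?_⟩
    rw [hL, hc]
    field_simp
  let W := V.comap L
  have hmap : W.map L = V := Submodule.map_comap_eq_self hrange
  let eW : W ≃ₗ[K] V := (Submodule.equivMapOfInjective L hLinj W).trans (LinearEquiv.ofEq _ _ hmap)
  have hWfin : FiniteDimensional K W := Module.Finite.equiv eW.symm
  have hWrank : finrank K W = finrank K V := eW.finrank_eq
  obtain ⟨d, hdW, hd⟩ := 𝔯.exists_echelon (finrank K V) W hWfin hWrank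
  have hmem : ∀ i, RD.Φ F b (𝔯.up (d i)) * (𝔯.ψ F₀ F u)⁻¹ * 𝔯.ψ F₀ F u =
      𝔯.ψ F₀ F (𝔯.elt b (d i)) := by
    intro i
    rw [ψ_elt]
    field_simp
  refine ⟨fun i => ⟨RD.Φ F b (𝔯.up (d i)) * (𝔯.ψ F₀ F u)⁻¹, 𝔯.elt b (d i), u, hu, hmem i⟩,
    fun i => hdW i, ?_⟩
  have h1 : (fun i => 𝔯.res (⟨RD.Φ F b (𝔯.up (d i)) * (𝔯.ψ F₀ F u)⁻¹, 𝔯.elt b (d i), u, hu,
      hmem i⟩ : 𝔯.O F₀ F F₁)) = fun i => (LinearMap.mulRight κ (𝔯.φ F₀ F₁ u)⁻¹).comp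
        (RD.Φ F₁ b) (𝔯.dn (d i)) := by
    ext i
    rw [𝔯.res_eq hu (hmem i), φ_elt]
    rw [LinearMap.comp_apply, LinearMap.mulRight_apply, div_eq_mul_inv]
  rw [h1]
  apply hd.map'
  rw [LinearMap.ker_eq_bot]
  intro c c' h
  rw [LinearMap.comp_apply, LinearMap.comp_apply, LinearMap.mulRight_apply,
    LinearMap.mulRight_apply] at h
  exact RD.Φ_injective F₁ b (mul_right_cancel₀ (inv_ne_zero hu) h)

theorem res_surj : Function.Surjective (𝔯.res (F₀ := F₀) (F := F) (F₁ := F₁)) := by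
  intro y
  have hspan : ∀ a ∈ Submodule.span κ (Set.range (algebraMap F₀ F₁)),
      ∃ t : 𝔯.A ⊗[K₀] F₀, 𝔯.φ F₀ F₁ t = a := by
    intro a ha
    induction ha using Submodule.span_induction with
    | mem x hx =>
      obtain ⟨f, rfl⟩ := hx
      exact ⟨1 ⊗ₜ f, by rw [φ_tmul]; simp⟩
    | zero => exact ⟨0, map_zero _⟩
    | add x y _ _ hx hy =>
      obtain ⟨t, rfl⟩ := hx
      obtain ⟨u, rfl⟩ := hy
      exact ⟨t + u, map_add _ _ _⟩
    | smul c x _ hx =>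
      obtain ⟨t, rfl⟩ := hx
      obtain ⟨a, rfl⟩ := 𝔯.surj c
      refine ⟨a ⊗ₜ 1 * t, ?_⟩
      rw [map_mul, φ_tmul, map_one, mul_one, Algebra.smul_def]
  obtain ⟨a, b, ha, hb, hb0, hab⟩ := hBC₁.gen y
  obtain ⟨t, rfl⟩ := hspan a ha
  obtain ⟨u, rfl⟩ := hspan b hb
  have hu := 𝔯.ψ_ne_zero F F₁ hb0
  have hz : 𝔯.ψ F₀ F t / 𝔯.ψ F₀ F u * 𝔯.ψ F₀ F u = 𝔯.ψ F₀ F t := div_mul_cancel₀ _ hu
  refine ⟨⟨𝔯.ψ F₀ F t / 𝔯.ψ F₀ F u, t, u, hb0, hz⟩, ?_⟩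
  rw [𝔯.res_eq hb0 hz, ← hab, mul_div_assoc, div_self hb0, mul_one]

variable (F₀) in
/-- **Deuring data of a base change.** -/
def data : Deuring.Data K κ F F₁ where
  A := 𝔯.A
  O := 𝔯.O F₀ F F₁
  π := 𝔯.π
  res := 𝔯.res
  mem_iff := 𝔯.mem_iff F F₁
  π_surj := 𝔯.surj
  π_ker := 𝔯.ker
  res_surj := 𝔯.res_surj F F₁
  res_ker := 𝔯.res_ker F F₁
  res_algebraMap a := 𝔯.res_algebraMap_K F F₁ a.2
  lat := 𝔯.lat F F₁

end RDk

end Fermat.Agent.AVG
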