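import Fermat.Agent.AVG.Uniq

/-!
# The Gauss extension of a discrete valuation ring is a discrete valuation ring
-/

set_option autoImplicit false
set_option linter.unusedSectionVars false

noncomputable section

open Module
open scoped TensorProduct

namespace Fermat.Agent.AVG

open Fermat.Agent.BaseChangeFF

namespace RDk

variable {K₀ K κ : Type*} [Field K₀] [Field K] [Algebra K₀ K] [Field κ] [Algebra K₀ κ]
  (𝔯 : RDk K₀ K κ)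
  {F₀ : Type*} (F F₁ : Type*) [Field F₀] [Algebra K₀ F₀]
  [Field F] [Algebra K F] [Algebra F₀ F] [Algebra K₀ F] [IsScalarTower K₀ K F]
  [IsScalarTower K₀ F₀ F]
  [Field F₁] [Algebra κ F₁] [Algebra F₀ F₁] [Algebra K₀ F₁] [IsScalarTower K₀ κ F₁]
  [IsScalarTower K₀ F₀ F₁]
  [hBC : BC K₀ K F₀ F] [hBC₁ : BC K₀ κ F₀ F₁]

theorem isUnit_of_res_ne {z : 𝔯.O F₀ F F₁} (h : 𝔯.res z ≠ 0) : IsUnit z := by
  by_contra hu
  exact h ((𝔯.res_ker F F₁ z).mpr hu)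

theorem ψ_isUnit {t : 𝔯.A ⊗[K₀] F₀} (ht : 𝔯.φ F₀ F₁ t ≠ 0) :
    IsUnit (⟨𝔯.ψ F₀ F t, 𝔯.ψ_mem_O F F₁ t⟩ : 𝔯.O F₀ F F₁) :=
  𝔯.isUnit_of_res_ne F F₁ (by rw [res_ψ]; exact ht)

/-- **every element is a constant times a unit** -/
theorem exists_const_mul_unit {z : F} (hz : z ≠ 0) : ∃ (c : K) (u : (𝔯.O F₀ F F₁)ˣ), c ≠ 0 ∧
    z = algebraMap K F c * ((u : 𝔯.O F₀ F F₁) : F) := by
  obtain ⟨a, b, ha, hb, hb0, hab⟩ := hBC.gen z
  have ha0 : a ≠ 0 := by rw [← hab]; exact mul_ne_zero hz hb0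
  obtain ⟨α, t, hα, ht, rfl⟩ := 𝔯.exists_primitive F F₁ ha ha0
  obtain ⟨β, u, hβ, hu, rfl⟩ := 𝔯.exists_primitive F F₁ hb hb0
  have hβF : algebraMap K F β ≠ 0 := by simpa using hβ
  have hψu := 𝔯.ψ_ne_zero F F₁ hu
  refine ⟨α / β, (𝔯.ψ_isUnit F F₁ ht).unit * (𝔯.ψ_isUnit F F₁ hu).unit⁻¹, div_ne_zero hα hβ, ?_⟩
  have h1 : (((𝔯.ψ_isUnit F F₁ hu).unit⁻¹ : (𝔯.O F₀ F F₁)ˣ) : 𝔯.O F₀ F F₁).1 *
      𝔯.ψ F₀ F u = 1 := congrArg Subtype.val (𝔯.ψ_isUnit F F₁ hu).val_inv_mul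
  have h2 : (((𝔯.ψ_isUnit F F₁ hu).unit⁻¹ : (𝔯.O F₀ F F₁)ˣ) : 𝔯.O F₀ F F₁).1 =
      (𝔯.ψ F₀ F u)⁻¹ := eq_inv_of_mul_eq_one_left h1
  rw [Units.val_mul]
  show z = algebraMap K F (α / β) * (𝔯.ψ F₀ F t *
    (((𝔯.ψ_isUnit F F₁ hu).unit⁻¹ : (𝔯.O F₀ F F₁)ˣ) : 𝔯.O F₀ F F₁).1)
  rw [h2, map_div₀]
  field_simp
  linear_combination hab

/-- constants which are units -/
theorem isUnit_algebraMap_iff {a : K} (ha : a ∈ 𝔯.A) :
    IsUnit (⟨algebraMap K F a, 𝔯.algebraMap_mem_O_of_mem F F₁ ha⟩ : 𝔯.O F₀ F F₁) ↔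
      IsUnit (⟨a, ha⟩ : 𝔯.A) := by
  rw [← not_iff_not, ← 𝔯.res_ker, ← 𝔯.ker, 𝔯.res_algebraMap_K, map_eq_zero]

/-- **discreteness** -/
theorem exists_zpow {ϖ : K} (hϖ : ∀ c : K, c ≠ 0 → ∃ (n : ℤ) (u : 𝔯.Aˣ), c = ϖ ^ n * ((u : 𝔯.A) : K))
    {z : F} (hz : z ≠ 0) :
    ∃ (n : ℤ) (u : (𝔯.O F₀ F F₁)ˣ), z = algebraMap K F ϖ ^ n * ((u : 𝔯.O F₀ F F₁) : F) := by
  obtain ⟨c, u, hc, rfl⟩ := 𝔯.exists_const_mul_unit (F₀ := F₀) F F₁ hz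
  obtain ⟨n, w, rfl⟩ := hϖ c hc
  have hw := (𝔯.isUnit_algebraMap_iff (F₀ := F₀) F F₁ ((w : 𝔯.A)).2).mpr w.isUnit
  refine ⟨n, hw.unit * u, ?_⟩
  rw [map_mul, map_zpow₀, mul_assoc]
  rfl

/-- **The Gauss extension of a discrete valuation ring is a discrete valuation ring** (with the
same uniformizer). -/
theorem isDVR [IsDiscreteValuationRing 𝔯.A] {ϖ : 𝔯.A} (hϖ : Irreducible ϖ) :
    IsDiscreteValuationRing (𝔯.O F₀ F F₁) ∧
      Irreducible (⟨algebraMap K F ϖ, 𝔯.algebraMap_mem_O_of_mem F F₁ ϖ.2⟩ : 𝔯.O F₀ F F₁) := by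
  set P : 𝔯.O F₀ F F₁ := ⟨algebraMap K F ϖ, 𝔯.algebraMap_mem_O_of_mem F F₁ ϖ.2⟩ with hP
  have hϖ0 : (ϖ : K) ≠ 0 := fun h => hϖ.ne_zero (Subtype.ext h)
  have hF0 : algebraMap K F (ϖ : K) ≠ 0 := by simpa using hϖ0
  have hP0 : P ≠ 0 := fun h => hF0 (congrArg Subtype.val h)
  have hPu : ¬ IsUnit P := by
    rw [hP, 𝔯.isUnit_algebraMap_iff (F₀ := F₀) F F₁ ϖ.2]
    exact hϖ.not_isUnit
  have hA : ∀ c : K, c ≠ 0 → ∃ (n : ℤ) (u : 𝔯.Aˣ), c = (ϖ : K) ^ n * ((u : 𝔯.A) : K) := by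
    have key : ∀ c : 𝔯.A, c ≠ 0 → ∃ (n : ℤ) (u : 𝔯.Aˣ), (c : K) = (ϖ : K) ^ n * ((u : 𝔯.A) : K) := by
      intro c hc
      obtain ⟨n, u, hu⟩ := IsDiscreteValuationRing.eq_unit_mul_pow_irreducible hc hϖ
      refine ⟨n, u, ?_⟩
      rw [hu]
      push_cast
      rw [zpow_natCast, mul_comm]
    intro c hc
    rcases 𝔯.A.mem_or_inv_mem c with h | h
    · exact key ⟨c, h⟩ (fun h0 => hc (congrArg Subtype.val h0))
    · obtain ⟨n, u, hu⟩ := key ⟨c⁻¹, h⟩ (fun h0 => inv_ne_zero hc (congrArg Subtype.val h0))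
      refine ⟨-n, u⁻¹, ?_⟩
      have h1 : ((u : 𝔯.A) : K) * (((u⁻¹ : 𝔯.Aˣ) : 𝔯.A) : K) = 1 :=
        congrArg Subtype.val u.mul_inv
      have h2 : ((u : 𝔯.A) : K) ≠ 0 := left_ne_zero_of_mul_eq_one h1
      have h3 : (((u⁻¹ : 𝔯.Aˣ) : 𝔯.A) : K) = ((u : 𝔯.A) : K)⁻¹ := eq_inv_of_mul_eq_one_right h1
      have h4 : c = (c⁻¹)⁻¹ := (inv_inv c).symm
      rw [h4, show c⁻¹ = (ϖ : K) ^ n * ((u : 𝔯.A) : K) from hu, h3, mul_inv, zpow_neg]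
  have hassoc : ∀ x : 𝔯.O F₀ F F₁, x ≠ 0 → ∃ n : ℕ, Associated (P ^ n) x := by
    intro x hx
    obtain ⟨n, u, hu⟩ := 𝔯.exists_zpow (F₀ := F₀) F F₁ hA (z := (x : F))
      (fun h => hx (Subtype.ext h))
    rcases le_or_gt 0 n with hn | hn
    · lift n to ℕ using hn
      refine ⟨n, u, Subtype.ext ?_⟩
      rw [zpow_natCast] at hu
      exact hu.symm
    · exfalso
      obtain ⟨m, hm⟩ : ∃ m : ℕ, n = -((m + 1 : ℕ) : ℤ) := ⟨(-n - 1).toNat, by omega⟩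
      apply hPu
      have h1 : (P ^ (m + 1)) * x = (u : 𝔯.O F₀ F F₁) := by
        apply Subtype.ext
        show algebraMap K F ϖ ^ (m + 1) * (x : F) = _
        rw [hu, hm, zpow_neg, zpow_natCast, ← mul_assoc, mul_inv_cancel₀ (pow_ne_zero _ hF0),
          one_mul]
      have h2 : IsUnit (P ^ (m + 1)) := isUnit_of_mul_isUnit_left (h1 ▸ u.isUnit)
      exact (isUnit_pow_succ_iff).mp h2
  have hirr : Irreducible P := by
    refine ⟨hPu, ?_⟩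
    intro a b hab
    have ha0 : a ≠ 0 := by rintro rfl; rw [zero_mul] at hab; exact hP0 hab
    have hb0 : b ≠ 0 := by rintro rfl; rw [mul_zero] at hab; exact hP0 hab
    obtain ⟨n, hn⟩ := hassoc a ha0
    obtain ⟨m, hm⟩ := hassoc b hb0
    have h1 : Associated (P ^ (n + m)) (P ^ 1) := by
      rw [pow_add, pow_one]
      conv_rhs => rw [hab]
      exact hn.mul_mul hm
    have h2 : n + m = 1 := by
      rcases lt_trichotomy (n + m) 1 with h | h | h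
      · have : n + m = 0 := by omega
        rw [this, pow_zero, pow_one] at h1
        exact absurd (h1.isUnit isUnit_one) hPu
      · exact h
      · obtain ⟨k, hk⟩ : ∃ k, n + m = 1 + (k + 1) := ⟨n + m - 2, by omega⟩
        rw [hk, pow_add] at h1
        obtain ⟨u, hu⟩ := h1
        rw [pow_one, mul_assoc] at hu
        have h3 : P ^ (k + 1) * (u : 𝔯.O F₀ F F₁) = 1 :=
          mul_left_cancel₀ hP0 (by rw [hu, mul_one])
        have h4 : IsUnit (P ^ (k + 1)) := IsUnit.of_mul_eq_one _ h3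
        exact absurd ((isUnit_pow_succ_iff).mp h4) hPu
    have h3 : n = 0 ∨ m = 0 := by omega
    rcases h3 with rfl | rfl
    · left
      rw [pow_zero] at hn
      exact hn.isUnit isUnit_one
    · right
      rw [pow_zero] at hm
      exact hm.isUnit isUnit_one
  refine ⟨?_, hirr⟩
  exact IsDiscreteValuationRing.ofHasUnitMulPowIrreducibleFactorization
    ⟨P, hirr, fun {x} hx => hassoc x hx⟩

end RDk

end Fermat.Agent.AVG
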