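import Fermat.Agent.AVG.Hgt
import Fermat.Agent.AVE.Tower

/-!
# S26, block D7: height of constants, bridge between the two forms of heights
-/

set_option autoImplicit false
set_option linter.unusedSectionVars false

noncomputable section

universe u

open IntermediateField

namespace Fermat.Agent.AVn.AVar

open Fermat.Agent.BaseChangeFF Fermat.Agent.AVG

variable {K : Type u} [Field K] {g : ℕ} (A : AVar K g)

section Zero

variable {k E Ω : Type u} [Field k] [Field E] [Field Ω] [Algebra K k] [Algebra k E] [Algebra K E]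
  [IsScalarTower K k E] [Algebra E Ω] [Algebra K Ω] [Algebra k Ω] [IsScalarTower K E Ω]
  [IsScalarTower k E Ω] [IsScalarTower K k Ω] [Algebra A.F Ω] [IsScalarTower K A.F Ω]
  [hBC : BC K E A.F Ω]

/-- elements of `E` transcendental over `k` stay transcendental over `k(a)` -/
theorem br_transcendental {e : E} (he : Transcendental k e) :
    Transcendental ↥((IsScalarTower.toAlgHom K k Ω).fieldRange ⊔ A.fd (A.gpt Ω))
      (algebraMap E Ω e) := by
  set A0 : IntermediateField K Ω := (IsScalarTower.toAlgHom K k Ω).fieldRange with hA0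
  set A1 : IntermediateField K Ω := (IsScalarTower.toAlgHom K E Ω).fieldRange with hA1
  have hle : A0 ≤ A1 := by
    rintro _ ⟨c, rfl⟩
    exact ⟨algebraMap k E c, (IsScalarTower.algebraMap_apply k E Ω c).symm⟩
  have hgen := ((A.br_gen_iff _ _).mp (A.gen_gpt E Ω)).2
  have hLD := AVE.LD_shift hgen hle
  have h1 : Transcendental A0 (algebraMap E Ω e) := by
    intro halg
    apply he
    let f0 : k →+* A0 :=
      { toFun := fun c => ⟨algebraMap k Ω c, ⟨c, rfl⟩⟩
        map_one' := Subtype.ext (_root_.map_one _)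
        map_mul' := fun a b => Subtype.ext (_root_.map_mul _ a b)
        map_zero' := Subtype.ext (_root_.map_zero _)
        map_add' := fun a b => Subtype.ext (_root_.map_add _ a b) }
    refine IsAlgebraic.of_ringHom_of_comp_eq f0 (algebraMap E Ω) halg
      (fun x => ?_) (algebraMap E Ω).injective ?_
    · obtain ⟨_, c, rfl⟩ := x
      exact ⟨c, rfl⟩
    · ext c
      exact IsScalarTower.algebraMap_apply k E Ω c
  have h2 := AVE.linearIndependent_pow h1
  rintro ⟨p, hp0, hp⟩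
  have h3 := hLD (p.natDegree + 1) (fun i => algebraMap E Ω e ^ (i : ℕ))
    (fun i => pow_mem (⟨e, rfl⟩ : algebraMap E Ω e ∈ A1) _)
    (h2.comp (fun i : Fin (p.natDegree + 1) => (i : ℕ)) Fin.val_injective)
  rw [Fintype.linearIndependent_iff] at h3
  apply hp0
  have h4 := h3 (fun i => p.coeff i) (by
    rw [Polynomial.aeval_eq_sum_range, Finset.sum_range] at hp
    exact hp)
  ext n
  rcases lt_or_ge p.natDegree n with hn | hn
  · rw [Polynomial.coeff_eq_zero_of_natDegree_lt hn]; rfl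
  · exact congrArg Subtype.val (h4 ⟨n, Nat.lt_succ_of_le hn⟩)

theorem hgt_zero (f : A.F) (hE : ¬ Algebra.IsAlgebraic k E) :
    A.hgt k Ω f (A.map (IsScalarTower.toAlgHom K E Ω) 0) = 0 := by
  by_contra hne
  apply hE
  have hfin : FiniteDimensional (A.kaf k Ω f (A.map (IsScalarTower.toAlgHom K E Ω) 0)) Ω :=
    Module.finite_of_finrank_pos (Nat.pos_of_ne_zero hne)
  constructor
  intro e
  by_contra he
  have h1 := A.br_transcendental (Ω := Ω) he
  set N : IntermediateField K Ω :=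
    (IsScalarTower.toAlgHom K k Ω).fieldRange ⊔ A.fd (A.gpt Ω) with hN
  have h2 : IsAlgebraic (A.kaf k Ω f (A.map (IsScalarTower.toAlgHom K E Ω) 0))
      (algebraMap E Ω e) := Algebra.IsAlgebraic.isAlgebraic _
  have hk : ∀ c, algebraMap k Ω c ∈ N := fun c =>
    (le_sup_left : _ ≤ N) ⟨c, rfl⟩
  have hF : ∀ x, algebraMap A.F Ω x ∈ N := fun x =>
    (le_sup_right : _ ≤ N) (by rw [gpt, fd_map_gen]; exact ⟨x, rfl⟩)
  have hle : ∀ x ∈ A.kaf k Ω f (A.map (IsScalarTower.toAlgHom K E Ω) 0), x ∈ N := by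
    intro x hx
    have hx' : x ∈ Subfield.closure (Set.range (algebraMap k Ω) ∪
      insert (A.ev (A.map (IsScalarTower.toAlgHom K E Ω) 0 - A.gpt Ω) f)
        (Set.range (algebraMap A.F Ω))) := hx
    have h3 : Subfield.closure (Set.range (algebraMap k Ω) ∪
      insert (A.ev (A.map (IsScalarTower.toAlgHom K E Ω) 0 - A.gpt Ω) f)
        (Set.range (algebraMap A.F Ω))) ≤ N.toSubfield := by
      rw [Subfield.closure_le]
      rintro y (⟨c, rfl⟩ | hy | ⟨c, rfl⟩)
      · exact hk c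
      · rw [hy, A.map_zero, zero_sub, gpt, ← A.map_neg, br_ev_map]
        exact hF _
      · exact hF c
    exact h3 hx'
  apply h1
  refine h2.ringHom_of_comp_eq (S := N) (B := Ω)
    ({ toFun := fun x => ⟨x, hle x x.2⟩
       map_one' := rfl
       map_mul' := fun _ _ => rfl
       map_zero' := rfl
       map_add' := fun _ _ => rfl } :
      A.kaf k Ω f (A.map (IsScalarTower.toAlgHom K E Ω) 0) →+* N) (RingHom.id Ω)
    (fun x y hxy => Subtype.ext (congrArg (fun z : N => (z : Ω)) hxy)) (by ext x; rfl)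

end Zero

/-! ### bridge -/

section Bridge

/-- **Bridge**: the height in an ambient field `Ω` (block E2, F) is the height in any
`Ω' = E(a)` (blocks D, E1). -/
theorem ht_eq_hgt_of_embedding {k E Ω' Ω : Type u} [Field k] [Field E] [Field Ω'] [Field Ω]
    [Algebra K E] [Algebra k Ω'] [Algebra E Ω'] [Algebra K Ω']
    [IsScalarTower K E Ω'] [Algebra A.F Ω'] [IsScalarTower K A.F Ω'] [BC K E A.F Ω']
    [Algebra K Ω] (j : Ω' →ₐ[K] Ω) (k₀ E₀ : IntermediateField K Ω)
    (hk : ∀ x, x ∈ k₀ ↔ ∃ c : k, j (algebraMap k Ω' c) = x)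
    (hE : ∀ x, x ∈ E₀ ↔ ∃ e : E, j (algebraMap E Ω' e) = x) (f : A.F) (P : A.Pt Ω') :
    A.ht k₀ E₀ (A.map j (A.gpt Ω')) f (A.map j P) = A.hgt k Ω' f P := by
  rw [ht, IntermediateField.relfinrank, ← hd_eq_hgt, hd, ← Subfield.relfinrank_map_map _ _
    (j : Ω' →+* Ω)]
  congr 1
  · -- the fields `k(a)(f(P - a))`
    apply le_antisymm
    · have h1 : k₀ ⊔ A.fd (A.map j (A.gpt Ω')) ⊔ K⟮A.ev (A.map j P - A.map j (A.gpt Ω')) f⟯ ≤
          (A.hkI (k := k) (A.gpt Ω') f P).map j := by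
        obtain ⟨h1, h2, h3⟩ := A.hk_spec k (A.gpt Ω') f P
        refine sup_le (sup_le ?_ ?_) ?_
        · intro x hx
          obtain ⟨c, rfl⟩ := (hk x).mp hx
          exact ⟨_, h1 c, rfl⟩
        · rw [A.fd_map]
          rintro _ ⟨x, hx, rfl⟩
          exact ⟨x, h2 x hx, rfl⟩
        · rw [adjoin_simple_le_iff, ← A.map_sub, br_ev_map]
          exact ⟨_, h3, rfl⟩
      intro x hx
      obtain ⟨y, hy, rfl⟩ := h1 hx
      exact ⟨y, hy, rfl⟩
    · rw [Subfield.map_le_iff_le_comap, hk_le_iff]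
      refine ⟨fun c => ?_, fun x hx => ?_, ?_⟩
      · show j (algebraMap k Ω' c) ∈ (k₀ ⊔ A.fd (A.map j (A.gpt Ω')) ⊔ _ : IntermediateField K Ω)
        exact (le_sup_left.trans le_sup_left : k₀ ≤ _) ((hk _).mpr ⟨c, rfl⟩)
      · show j x ∈ (k₀ ⊔ A.fd (A.map j (A.gpt Ω')) ⊔ _ : IntermediateField K Ω)
        refine (le_sup_right.trans le_sup_left : A.fd (A.map j (A.gpt Ω')) ≤ _) ?_
        rw [A.fd_map]
        exact ⟨x, hx, rfl⟩
      · show j _ ∈ (k₀ ⊔ A.fd (A.map j (A.gpt Ω')) ⊔ _ : IntermediateField K Ω)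
        rw [← A.br_ev_map, A.map_sub]
        exact (le_sup_right : K⟮A.ev (A.map j P - A.map j (A.gpt Ω')) f⟯ ≤ _)
          (mem_adjoin_simple_self K _)
  · -- `E(a)`
    apply le_antisymm
    · have h1 : E₀ ⊔ A.fd (A.map j (A.gpt Ω')) ≤ j.fieldRange := by
        refine sup_le ?_ ?_
        · intro x hx
          obtain ⟨c, rfl⟩ := (hE x).mp hx
          exact ⟨_, rfl⟩
        · rw [A.fd_map]
          rintro _ ⟨x, hx, rfl⟩
          exact ⟨x, rfl⟩
      intro x hx
      obtain ⟨y, rfl⟩ := h1 hx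
      exact ⟨y, trivial, rfl⟩
    · rintro _ ⟨z, _, rfl⟩
      refine A.br_mem_field (E := E)
        ((E₀ ⊔ A.fd (A.map j (A.gpt Ω')) : IntermediateField K Ω).comap j) (fun e => ?_) ?_ z
      · show j (algebraMap E Ω' e) ∈ (E₀ ⊔ A.fd (A.map j (A.gpt Ω')) : IntermediateField K Ω)
        exact (le_sup_left : E₀ ≤ _) ((hE _).mpr ⟨e, rfl⟩)
      · intro x hx
        show j x ∈ (E₀ ⊔ A.fd (A.map j (A.gpt Ω')) : IntermediateField K Ω)
        refine (le_sup_right : A.fd (A.map j (A.gpt Ω')) ≤ _) ?_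
        rw [A.fd_map]
        exact ⟨x, hx, rfl⟩

/-- **Bridge** for intermediate fields `k ≤ E ≤ Ω`, `a` generic over `E` and `Ω'` any `E(a)`. -/
theorem ht_eq_hgt {Ω : Type u} [Field Ω] [Algebra K Ω] (k E : IntermediateField K Ω)
    [Algebra k E] (hkE : ∀ c : k, ((algebraMap k E c : E) : Ω) = c) {a : A.Pt Ω}
    (ha : A.Gen E a) (Ω' : Type u) [Field Ω'] [Algebra K Ω'] [Algebra E Ω'] [Algebra k Ω']
    [IsScalarTower K E Ω'] [IsScalarTower k E Ω'] [Algebra A.F Ω'] [IsScalarTower K A.F Ω']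
    [BC K E A.F Ω'] (f : A.F) (P : A.Pt E) :
    A.ht k E a f (A.map E.val P) = A.hgt k Ω' f (A.map (IsScalarTower.toAlgHom K E Ω') P) := by
  obtain ⟨j, h1, rfl⟩ := A.exists_bcHom (Ω := Ω') E.val a (by
    have : E.val.fieldRange = E := by
      ext x; exact ⟨fun ⟨y, hy⟩ => hy ▸ y.2, fun hx => ⟨⟨x, hx⟩, rfl⟩⟩
    rwa [this])
  have h2 : A.map E.val P = A.map j (A.map (IsScalarTower.toAlgHom K E Ω') P) := by
    rw [← A.map_comp]
    congr 1
    ext x
    exact (h1 x).symm
  rw [h2]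
  apply A.ht_eq_hgt_of_embedding (E := E) j
  · intro x
    constructor
    · intro hx
      refine ⟨⟨x, hx⟩, ?_⟩
      rw [IsScalarTower.algebraMap_apply k E Ω', h1]
      exact hkE _
    · rintro ⟨c, rfl⟩
      rw [IsScalarTower.algebraMap_apply k E Ω', h1]
      show ((algebraMap k E c : E) : Ω) ∈ k
      rw [hkE]
      exact c.2
  · intro x
    constructor
    · intro hx
      exact ⟨⟨x, hx⟩, h1 _⟩
    · rintro ⟨c, rfl⟩
      rw [h1]
      exact c.2

end Bridge

end Fermat.Agent.AVn.AVar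

end
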