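import Fermat.Agent.BaseChangeFF.Tensor

/-!
# Universal property of base changes of fields
-/

set_option autoImplicit false
set_option linter.unusedSectionVars false

noncomputable section

open Module
open scoped TensorProduct

namespace Fermat.Agent.AVG

open Fermat.Agent.BaseChangeFF

section

variable (K E F Ω : Type*) [Field K] [Field E] [Field F] [Field Ω] [Algebra K E] [Algebra K F]
  [Algebra K Ω] [Algebra E Ω] [Algebra F Ω] [IsScalarTower K E Ω] [IsScalarTower K F Ω]

/-- `E ⊗ F → Ω` -/
def bcMul : E ⊗[K] F →ₐ[E] Ω :=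
  Algebra.TensorProduct.lift (Algebra.ofId E Ω) (IsScalarTower.toAlgHom K F Ω)
    (fun _ _ => Commute.all _ _)

theorem bcMul_tmul (e : E) (x : F) :
    bcMul K E F Ω (e ⊗ₜ x) = algebraMap E Ω e * algebraMap F Ω x := by
  rw [bcMul, Algebra.TensorProduct.lift_tmul]; rfl

variable {K E F} in
/-- coordinates -/
theorem tensor_eq_sum {ι : Type*} (b : Basis ι K F) (x : E ⊗[K] F) :
    ∃ c : ι →₀ E, x = c.sum fun i e => e ⊗ₜ b i := by
  let bE := Algebra.TensorProduct.basis E b
  refine ⟨bE.repr x, ?_⟩
  conv_lhs => rw [← bE.linearCombination_repr x]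
  rw [Finsupp.linearCombination_apply]
  refine Finsupp.sum_congr fun i _ => ?_
  rw [Algebra.TensorProduct.basis_apply, TensorProduct.smul_tmul', smul_eq_mul, mul_one]

variable {K E F} in
/-- maps from `E ⊗ F` to a ring are injective if they preserve linear independence -/
theorem injective_of_lin {T : Type*} [CommRing T] (μ : E ⊗[K] F →+* T)
    (h : ∀ (n : ℕ) (f : Fin n → F), LinearIndependent K f → ∀ c : Fin n → E,
      ∑ i, μ (c i ⊗ₜ f i) = 0 → c = 0) : Function.Injective μ := by
  classical
  rw [injective_iff_map_eq_zero]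
  intro x hx
  let b := Module.Basis.ofVectorSpace K F
  obtain ⟨w, rfl⟩ := tensor_eq_sum (E := E) b x
  rw [Finsupp.sum, map_sum] at hx
  let e := w.support.equivFin
  have h1 := h w.support.card (fun i => b (e.symm i))
    (b.linearIndependent.comp (fun i => ((e.symm i : w.support) : _))
      (Subtype.val_injective.comp e.symm.injective)) (fun i => w (e.symm i)) (by
        rw [← hx, ← Finset.sum_coe_sort w.support (fun i => μ (w i ⊗ₜ b i))]
        exact Equiv.sum_comp e.symm (fun i : w.support => μ (w i ⊗ₜ b i)))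
  have h2 : w = 0 := by
    ext i
    by_cases hi : i ∈ w.support
    · have := congrFun h1 (e ⟨i, hi⟩)
      simpa using this
    · simpa using hi
  rw [h2, Finsupp.sum_zero_index]

variable [hBC : BC K E F Ω]

theorem bcMul_injective : Function.Injective (bcMul K E F Ω) := by
  apply injective_of_lin (bcMul K E F Ω).toRingHom
  intro n f hf c hc
  have h1 := hBC.lin n f hf
  rw [Fintype.linearIndependent_iff] at h1
  funext i
  refine h1 c ?_ i
  rw [← hc]
  refine Finset.sum_congr rfl fun i _ => ?_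
  rw [Algebra.smul_def]
  exact (bcMul_tmul K E F Ω _ _).symm

theorem mem_range_bcMul {z : Ω} (hz : z ∈ Submodule.span E (Set.range (algebraMap F Ω))) :
    ∃ t, bcMul K E F Ω t = z := by
  induction hz using Submodule.span_induction with
  | mem x hx =>
    obtain ⟨y, rfl⟩ := hx
    exact ⟨1 ⊗ₜ y, by rw [bcMul_tmul, map_one, one_mul]⟩
  | zero => exact ⟨0, map_zero _⟩
  | add x y _ _ hx hy =>
    obtain ⟨t, ht⟩ := hx
    obtain ⟨u, hu⟩ := hy
    exact ⟨t + u, by rw [map_add, ht, hu]⟩
  | smul c x _ hx =>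
    obtain ⟨t, ht⟩ := hx
    exact ⟨c • t, by rw [map_smul, ht]⟩

/-- The universal property of the base change: a homomorphism from `Ω = E·F` -/
theorem exists_bcLift {T : Type*} [Field T] (α : E →+* T) (β : F →+* T)
    (hK : ∀ c : K, α (algebraMap K E c) = β (algebraMap K F c))
    (hlin : ∀ (n : ℕ) (f : Fin n → F), LinearIndependent K f → ∀ c : Fin n → E,
      ∑ i, α (c i) * β (f i) = 0 → c = 0) :
    ∃ θ : Ω →+* T, (∀ e, θ (algebraMap E Ω e) = α e) ∧ ∀ x, θ (algebraMap F Ω x) = β x := by
  let alg1 : Algebra (E ⊗[K] F) Ω := (bcMul K E F Ω).toRingHom.toAlgebra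
  have halg1 : ∀ t, algebraMap (E ⊗[K] F) Ω t = bcMul K E F Ω t := fun _ => rfl
  have hf : FaithfulSMul (E ⊗[K] F) Ω := by
    rw [faithfulSMul_iff_algebraMap_injective]
    exact bcMul_injective K E F Ω
  have hfr : IsFractionRing (E ⊗[K] F) Ω := by
    apply IsFractionRing.of_field
    intro z
    obtain ⟨a, b, ha, hb, hb0, h⟩ := hBC.gen z
    obtain ⟨t, rfl⟩ := mem_range_bcMul K E F Ω ha
    obtain ⟨u, rfl⟩ := mem_range_bcMul K E F Ω hb
    exact ⟨t, u, by rw [halg1, halg1, eq_div_iff hb0, h]⟩
  have hdom : IsDomain (E ⊗[K] F) := (bcMul_injective K E F Ω).isDomain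
    (bcMul K E F Ω).toRingHom
  let algKT : Algebra K T := (α.comp (algebraMap K E)).toAlgebra
  let αa : E →ₐ[K] T := { toRingHom := α, commutes' := fun _ => rfl }
  let βa : F →ₐ[K] T := { toRingHom := β, commutes' := fun c => (hK c).symm }
  let ν : E ⊗[K] F →ₐ[K] T := Algebra.TensorProduct.lift αa βa (fun _ _ => Commute.all _ _)
  have hν : ∀ e x, ν (e ⊗ₜ x) = α e * β x := fun e x => by
    simp only [ν]
    rw [Algebra.TensorProduct.lift_tmul]; rfl
  have hinj : Function.Injective ν.toRingHom := by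
    apply injective_of_lin
    intro n f hf c hc
    apply hlin n f hf c
    rw [← hc]
    exact Finset.sum_congr rfl fun i _ => (hν _ _).symm
  refine ⟨IsFractionRing.lift hinj, fun e => ?_, fun x => ?_⟩
  · have h1 : algebraMap E Ω e = algebraMap (E ⊗[K] F) Ω (e ⊗ₜ 1) := by
      rw [halg1, bcMul_tmul, map_one, mul_one]
    rw [h1, IsFractionRing.lift_algebraMap]
    show ν _ = _
    rw [hν, map_one, mul_one]
  · have h1 : algebraMap F Ω x = algebraMap (E ⊗[K] F) Ω (1 ⊗ₜ x) := by
      rw [halg1, bcMul_tmul, map_one, one_mul]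
    rw [h1, IsFractionRing.lift_algebraMap]
    show ν _ = _
    rw [hν, map_one, one_mul]

include hBC in
/-- Every element of `Ω = E·F` is a quotient of elements of any subfield containing `E` and `F`. -/
theorem bc_mem_subfield (S : Subfield Ω) (hE : ∀ e : E, algebraMap E Ω e ∈ S)
    (hF : ∀ x : F, algebraMap F Ω x ∈ S) (z : Ω) : z ∈ S := by
  have hspan : ∀ z ∈ Submodule.span E (Set.range (algebraMap F Ω)), z ∈ S := by
    intro z hz
    induction hz using Submodule.span_induction with
    | mem x hx => obtain ⟨y, rfl⟩ := hx; exact hF y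
    | zero => exact S.zero_mem
    | add x y _ _ hx hy => exact S.add_mem hx hy
    | smul c x _ hx => rw [Algebra.smul_def]; exact S.mul_mem (hE c) hx
  obtain ⟨a, b, ha, hb, hb0, h⟩ := hBC.gen z
  rw [(eq_div_iff hb0).mpr h]
  exact S.div_mem (hspan a ha) (hspan b hb)

end

end Fermat.Agent.AVG
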