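import Fermat.Agent.AVG.BCUniv
import Fermat.Agent.AVn.Stmts
import Fermat.Agent.AVb.Fd
import Fermat.Agent.AVb.Free

/-!
# S26, block D7: heights, change of the base change field, translations, bridge
-/

set_option autoImplicit false
set_option linter.unusedSectionVars false

noncomputable section

universe u

open IntermediateField

namespace Fermat.Agent.AVn.AVar

open Fermat.Agent.BaseChangeFF Fermat.Agent.AVG

variable {K : Type u} [Field K] {g : ℕ} (A : AVar K g)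

section Ev

variable {Ω Ω' : Type u} [Field Ω] [Algebra K Ω] [Field Ω'] [Algebra K Ω']

theorem br_trdeg_fd_map (θ : Ω →ₐ[K] Ω') (w : A.Pt Ω) :
    Algebra.trdeg K (A.fd (A.map θ w)) = Algebra.trdeg K (A.fd w) := by
  rw [A.fd_map]
  exact ((A.fd w).equivMap θ).trdeg_eq.symm

theorem br_trdeg_fd_map_gen (φ : A.F →ₐ[K] Ω) : Algebra.trdeg K (A.fd (A.map φ A.gen)) = g := by
  rw [A.fd_map_gen, ← A.trdeg_F]
  exact (AlgEquiv.ofInjectiveField φ).trdeg_eq.symm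

theorem br_ev_of_not {z : A.Pt Ω} (h : Algebra.trdeg K (A.fd z) ≠ g) (f : A.F) : A.ev z f = 0 := by
  rw [ev, dif_neg]
  rintro ⟨φ, rfl⟩
  exact h (A.br_trdeg_fd_map_gen φ)

theorem br_ev_map (θ : Ω →ₐ[K] Ω') (w : A.Pt Ω) (f : A.F) :
    A.ev (A.map θ w) f = θ (A.ev w f) := by
  by_cases h : Algebra.trdeg K (A.fd w) = g
  · obtain ⟨φ, rfl⟩ := A.exists_ev w h
    rw [← A.map_comp, A.ev_eq, A.ev_eq]; rfl
  · rw [A.br_ev_of_not h, A.br_ev_of_not (by rwa [A.br_trdeg_fd_map]), _root_.map_zero]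

/-- the involution `-1` on the function field -/
theorem br_exists_neg : ∃ ι : A.F →ₐ[K] A.F, A.map ι A.gen = -A.gen := by
  apply A.exists_ev
  rw [A.fd_neg]
  have h := A.br_trdeg_fd_map_gen (AlgHom.id K A.F)
  rwa [A.map_id] at h

theorem br_ev_neg {f : A.F} (hf : A.Even f) (z : A.Pt Ω) : A.ev (-z) f = A.ev z f := by
  by_cases h : Algebra.trdeg K (A.fd z) = g
  · obtain ⟨φ, rfl⟩ := A.exists_ev z h
    rw [← A.map_neg, br_ev_map, hf, A.ev_eq]
  · rw [A.br_ev_of_not h, A.br_ev_of_not (by rwa [A.fd_neg])]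

end Ev

section Gen

variable {Ω : Type u} [Field Ω] [Algebra K Ω]

theorem br_gen_iff (k : IntermediateField K Ω) (z : A.Pt Ω) :
    A.Gen k z ↔ Algebra.trdeg K (A.fd z) = g ∧ k.LinearDisjoint (A.fd z) := by
  constructor
  · rintro ⟨φ, rfl, h⟩
    refine ⟨A.br_trdeg_fd_map_gen φ, ?_⟩
    rw [A.fd_map_gen]; exact h
  · rintro ⟨h1, h2⟩
    obtain ⟨φ, rfl⟩ := A.exists_ev z h1
    rw [A.fd_map_gen] at h2
    exact ⟨φ, rfl, h2⟩

theorem br_gen_neg {k : IntermediateField K Ω} {z : A.Pt Ω} (h : A.Gen k z) : A.Gen k (-z) := by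
  rw [br_gen_iff] at h ⊢
  rwa [A.fd_neg]

theorem br_trdeg_congr {k X Y : IntermediateField K Ω} (hX : k ≤ X) (hY : k ≤ Y) (h : X = Y) :
    Algebra.trdeg k (extendScalars hX) = Algebra.trdeg k (extendScalars hY) := by
  subst h; rfl

theorem br_gen_add [IsAlgClosed K] {k : IntermediateField K Ω} {z b : A.Pt Ω} (h : A.Gen k z)
    (hb : A.fd b ≤ k) : A.Gen k (z + b) := by
  rw [br_gen_iff] at h ⊢
  obtain ⟨h1, h2⟩ := h
  have h3 : k ⊔ A.fd (z + b) = k ⊔ A.fd z := A.sup_fd_add hb z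
  have h4 := AVb.trdeg_sup_eq h2
  have h5 : Algebra.trdeg k (extendScalars (le_sup_left : k ≤ k ⊔ A.fd (z + b))) = g := by
    rw [← h1, ← h4]
    exact br_trdeg_congr _ _ h3
  have h6 := AVb.trdeg_sup_le k (A.fd (z + b))
  rw [h5] at h6
  have h7 : Algebra.trdeg K (A.fd (z + b)) = g := le_antisymm (A.trdeg_fd_le _) h6
  refine ⟨h7, AVb.linearDisjoint_of_trdeg_le ?_ ?_⟩
  · rw [h7]; exact Cardinal.natCast_lt_aleph0
  · rw [h7, h5]

theorem br_gen_sub [IsAlgClosed K] {k : IntermediateField K Ω} {z b : A.Pt Ω} (h : A.Gen k z)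
    (hb : A.fd b ≤ k) : A.Gen k (z - b) := by
  rw [sub_eq_add_neg]
  exact A.br_gen_add h (by rwa [A.fd_neg])

end Gen

/-! ### the field `k(a)(f(P - a))` -/

section Hk

variable (k : Type u) {Ω : Type u} [Field k] [Field Ω] [Algebra k Ω] [Algebra K Ω]

/-- the field `k(a)(f(P - a))`, for an arbitrary point `a` -/
def hk (a : A.Pt Ω) (f : A.F) (P : A.Pt Ω) : Subfield Ω :=
  Subfield.closure (Set.range (algebraMap k Ω) ∪ (A.fd a : Set Ω) ∪ {A.ev (P - a) f})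

/-- the degree `[Ω : k(a)(f(P - a))]` -/
def hd (a : A.Pt Ω) (f : A.F) (P : A.Pt Ω) : ℕ := Subfield.relfinrank (A.hk k a f P) ⊤

theorem hd_eq_hgt [Algebra A.F Ω] [IsScalarTower K A.F Ω] (f : A.F) (P : A.Pt Ω) :
    A.hd k (A.gpt Ω) f P = A.hgt k Ω f P := by
  rw [hd, Subfield.relfinrank_top_right, hgt]
  have h1 : A.hk k (A.gpt Ω) f P = (A.kaf k Ω f P).toSubfield := by
    show _ = Subfield.closure _
    rw [hk, gpt, fd_map_gen, Set.union_assoc]
    congr 1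
    ext x
    simp only [Set.mem_union, Set.mem_range, Set.mem_singleton_iff, Set.mem_insert_iff,
      SetLike.mem_coe, AlgHom.mem_fieldRange, IsScalarTower.coe_toAlgHom']
    tauto
  rw [h1]; rfl

variable {k}

/-- `k(a)(f(P - a))` as an intermediate field over `K` -/
def hkI (a : A.Pt Ω) (f : A.F) (P : A.Pt Ω) : IntermediateField K Ω where
  __ := A.hk k a f P
  algebraMap_mem' c := Subfield.subset_closure (Or.inl (Or.inr ((A.fd a).algebraMap_mem c)))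

theorem mem_hkI {a : A.Pt Ω} {f : A.F} {P : A.Pt Ω} {x : Ω} :
    x ∈ A.hkI (k := k) a f P ↔ x ∈ A.hk k a f P := Iff.rfl

theorem fd_le_hkI (a : A.Pt Ω) (f : A.F) (P : A.Pt Ω) : A.fd a ≤ A.hkI (k := k) a f P :=
  fun _ hx => Subfield.subset_closure (Or.inl (Or.inr hx))

theorem hk_le_iff {a : A.Pt Ω} {f : A.F} {P : A.Pt Ω} {S : Subfield Ω} :
    A.hk k a f P ≤ S ↔ (∀ c, algebraMap k Ω c ∈ S) ∧ (∀ x ∈ A.fd a, x ∈ S) ∧
      A.ev (P - a) f ∈ S := by
  rw [hk, Subfield.closure_le]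
  constructor
  · intro h
    exact ⟨fun c => h (Or.inl (Or.inl ⟨c, rfl⟩)), fun x hx => h (Or.inl (Or.inr hx)),
      h (Or.inr rfl)⟩
  · rintro ⟨h1, h2, h3⟩ x ((⟨c, rfl⟩ | hx) | hx)
    · exact h1 c
    · exact h2 x hx
    · rw [Set.mem_singleton_iff] at hx
      rw [hx]; exact h3

theorem hk_spec (k : Type u) [Field k] [Algebra k Ω] (a : A.Pt Ω) (f : A.F) (P : A.Pt Ω) :
    (∀ c, algebraMap k Ω c ∈ A.hk k a f P) ∧ (∀ x ∈ A.fd a, x ∈ A.hk k a f P) ∧
      A.ev (P - a) f ∈ A.hk k a f P := A.hk_le_iff.mp le_rfl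

theorem hk_add_le {a c : A.Pt Ω} (f : A.F) (P : A.Pt Ω)
    (hc : ∀ x ∈ A.fd c, x ∈ Set.range (algebraMap k Ω)) :
    A.hk k (a + c) f (P + c) ≤ A.hk k a f P := by
  obtain ⟨h1, h2, h3⟩ := A.hk_spec k a f P
  rw [hk_le_iff]
  refine ⟨h1, ?_, ?_⟩
  · have hle : A.fd c ≤ A.hkI (k := k) a f P := by
      intro x hx
      obtain ⟨y, rfl⟩ := hc x hx
      exact h1 y
    exact A.fd_add_le' (A.fd_le_hkI (k := k) a f P) hle
  · rwa [add_sub_add_right_eq_sub]

theorem hk_add {a c : A.Pt Ω} (f : A.F) (P : A.Pt Ω)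
    (hc : ∀ x ∈ A.fd c, x ∈ Set.range (algebraMap k Ω)) :
    A.hk k (a + c) f (P + c) = A.hk k a f P := by
  apply le_antisymm (A.hk_add_le f P hc)
  have h := A.hk_add_le (k := k) (a := a + c) (c := -c) f (P + c) (by rwa [A.fd_neg])
  rwa [add_neg_cancel_right, add_neg_cancel_right] at h

theorem hk_neg {f : A.F} (hf : A.Even f) (a P : A.Pt Ω) :
    A.hk k (-a) f (-P) = A.hk k a f P := by
  have h1 : -P - -a = -(P - a) := by abel
  rw [hk, hk, A.fd_neg, h1, A.br_ev_neg hf]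

end Hk

section Map

variable {k k' Ω Ω' : Type u} [Field k] [Field k'] [Field Ω] [Field Ω'] [Algebra k Ω]
  [Algebra K Ω] [Algebra k' Ω'] [Algebra K Ω']

theorem hk_map (θ : Ω →ₐ[K] Ω')
    (h1 : ∀ c : k, ∃ c' : k', θ (algebraMap k Ω c) = algebraMap k' Ω' c')
    (h2 : ∀ c' : k', ∃ c : k, θ (algebraMap k Ω c) = algebraMap k' Ω' c')
    (a : A.Pt Ω) (f : A.F) (P : A.Pt Ω) :
    (A.hk k a f P).map (θ : Ω →+* Ω') = A.hk k' (A.map θ a) f (A.map θ P) := by
  rw [hk, RingHom.map_field_closure, hk, ← A.map_sub, br_ev_map]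
  congr 1
  rw [Set.image_union, Set.image_union, Set.image_singleton]
  congr 1
  congr 1
  · ext x
    constructor
    · rintro ⟨_, ⟨c, rfl⟩, rfl⟩
      obtain ⟨c', hc'⟩ := h1 c
      exact ⟨c', hc'.symm⟩
    · rintro ⟨c', rfl⟩
      obtain ⟨c, hc⟩ := h2 c'
      exact ⟨_, ⟨c, rfl⟩, hc⟩
  · rw [A.fd_map]; rfl

theorem hd_map (θ : Ω →ₐ[K] Ω') (hθ : Function.Surjective θ)
    (h1 : ∀ c : k, ∃ c' : k', θ (algebraMap k Ω c) = algebraMap k' Ω' c')
    (h2 : ∀ c' : k', ∃ c : k, θ (algebraMap k Ω c) = algebraMap k' Ω' c')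
    (a : A.Pt Ω) (f : A.F) (P : A.Pt Ω) :
    A.hd k' (A.map θ a) f (A.map θ P) = A.hd k a f P := by
  rw [hd, hd, ← A.hk_map θ h1 h2 a f P]
  have h3 : (⊤ : Subfield Ω') = (⊤ : Subfield Ω).map (θ : Ω →+* Ω') := by
    symm
    rw [eq_top_iff]
    intro x _
    obtain ⟨y, rfl⟩ := hθ x
    exact ⟨y, trivial, rfl⟩
  rw [h3, Subfield.relfinrank_map_map]

end Map

/-! ### homomorphisms from `E(a)` -/

section Hom

variable {E Ω : Type u} [Field E] [Field Ω] [Algebra K E] [Algebra E Ω] [Algebra K Ω]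
  [IsScalarTower K E Ω] [Algebra A.F Ω] [IsScalarTower K A.F Ω] [hBC : BC K E A.F Ω]

variable (E Ω) in
theorem gen_gpt : A.Gen (IsScalarTower.toAlgHom K E Ω).fieldRange (A.gpt Ω) := by
  classical
  refine ⟨IsScalarTower.toAlgHom K A.F Ω, rfl, ?_⟩
  have hLD : (IsScalarTower.toAlgHom K E Ω).fieldRange.LinearDisjoint A.F := by
    refine LinearDisjoint.of_basis_right' (Module.Basis.ofVectorSpace K A.F) ?_
    have h := hBC.linearIndependent (Module.Basis.ofVectorSpace K A.F).linearIndependent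
    rw [linearIndependent_iff'] at h ⊢
    intro s c hc i hi
    choose c' hc' using fun i => (c i).2
    have h1 := h s c' (by
      rw [← hc]
      refine Finset.sum_congr rfl fun i _ => ?_
      rw [Algebra.smul_def, Algebra.smul_def]
      congr 1
      exact hc' i) i hi
    apply Subtype.ext
    rw [← hc' i, h1, _root_.map_zero]
    rfl
  exact linearDisjoint_iff'.mpr hLD

/-- homomorphisms from `Ω = E(a)` -/
theorem exists_bcHom {T : Type u} [Field T] [Algebra K T] (α : E →ₐ[K] T) (a : A.Pt T)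
    (h : A.Gen α.fieldRange a) :
    ∃ θ : Ω →ₐ[K] T, (∀ e, θ (algebraMap E Ω e) = α e) ∧ A.map θ (A.gpt Ω) = a := by
  obtain ⟨φ, rfl, hLD⟩ := h
  obtain ⟨θ, h1, h2⟩ := exists_bcLift K E A.F Ω (T := T) (α : E →+* T) (φ : A.F →+* T)
    (fun c => (α.commutes c).trans (φ.commutes c).symm) (by
      intro n f hf c hc
      have h3 : LinearIndependent K (fun i => φ.rangeRestrict (f i)) :=
        hf.map' φ.rangeRestrict.toLinearMap (LinearMap.ker_eq_bot.mpr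
          (AlgHom.injective_codRestrict _ _ _ |>.mpr φ.injective))
      have h4 := hLD.linearIndependent_right (b := fun i => (⟨φ (f i), ⟨f i, rfl⟩⟩ :
        φ.fieldRange)) h3
      rw [Fintype.linearIndependent_iff] at h4
      have h5 := h4 (fun i => ⟨α (c i), ⟨c i, rfl⟩⟩) (by
        rw [← hc]
        exact Finset.sum_congr rfl fun i _ => rfl)
      funext i
      have h6 := congrArg Subtype.val (h5 i)
      exact α.injective (h6.trans (_root_.map_zero α).symm))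
  let θ' : Ω →ₐ[K] T :=
    { θ with
      commutes' := fun c => by
        show θ _ = _
        rw [IsScalarTower.algebraMap_apply K E Ω, h1]
        exact α.commutes c }
  refine ⟨θ', h1, ?_⟩
  rw [gpt, ← A.map_comp]
  congr 1
  ext x
  exact h2 x

theorem br_mem_field (S : IntermediateField K Ω) (hE : ∀ e : E, algebraMap E Ω e ∈ S)
    (hF : A.fd (A.gpt Ω) ≤ S) (z : Ω) : z ∈ S := by
  refine bc_mem_subfield K E A.F Ω S.toSubfield hE (fun x => hF ?_) z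
  rw [gpt, fd_map_gen]
  exact ⟨x, rfl⟩

/-- automorphisms of `Ω = E(a)` over `E` -/
theorem exists_bcAut (a : A.Pt Ω) (h : A.Gen (IsScalarTower.toAlgHom K E Ω).fieldRange a)
    (hle : A.fd (A.gpt Ω) ≤ (IsScalarTower.toAlgHom K E Ω).fieldRange ⊔ A.fd a) :
    ∃ θ : Ω →ₐ[K] Ω, Function.Surjective θ ∧ (∀ e, θ (algebraMap E Ω e) = algebraMap E Ω e) ∧
      A.map θ (A.gpt Ω) = a := by
  obtain ⟨θ, h1, h2⟩ := A.exists_bcHom (Ω := Ω) (IsScalarTower.toAlgHom K E Ω) a h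
  refine ⟨θ, fun z => ?_, h1, h2⟩
  have h3 : (IsScalarTower.toAlgHom K E Ω).fieldRange ≤ θ.fieldRange := by
    rintro _ ⟨e, rfl⟩
    exact ⟨algebraMap E Ω e, h1 e⟩
  refine A.br_mem_field (E := E) θ.fieldRange (fun e => h3 ⟨e, rfl⟩) (hle.trans ?_) z
  refine sup_le h3 ?_
  rw [← h2, A.fd_map]
  rintro _ ⟨y, _, rfl⟩
  exact ⟨y, rfl⟩

end Hom

section Main

variable {k E Ω : Type u} [Field k] [Field E] [Field Ω] [Algebra K k] [Algebra k E] [Algebra K E]
  [IsScalarTower K k E] [Algebra E Ω] [Algebra K Ω] [Algebra k Ω] [IsScalarTower K E Ω]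
  [IsScalarTower k E Ω] [IsScalarTower K k Ω] [Algebra A.F Ω] [IsScalarTower K A.F Ω]
  [hBC : BC K E A.F Ω]

theorem br_map_fix {T : Type u} [Field T] [Algebra K T] [Algebra E T] [IsScalarTower K E T]
    (θ : Ω →ₐ[K] T) (h : ∀ e, θ (algebraMap E Ω e) = algebraMap E T e)
    (P : A.Pt E) : A.map θ (A.map (IsScalarTower.toAlgHom K E Ω) P) =
      A.map (IsScalarTower.toAlgHom K E T) P := by
  rw [← A.map_comp]
  congr 1
  ext x
  exact h x

/-- **heights do not depend on the choice of `E(a)`**, semilinear version. -/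
theorem hgt_iso {k' E' Ω' : Type u} [Field k'] [Field E'] [Field Ω'] [Algebra K k']
    [Algebra k' E'] [Algebra K E'] [IsScalarTower K k' E'] [Algebra E' Ω'] [Algebra K Ω']
    [Algebra k' Ω'] [IsScalarTower K E' Ω'] [IsScalarTower k' E' Ω'] [IsScalarTower K k' Ω']
    [Algebra A.F Ω'] [IsScalarTower K A.F Ω'] [BC K E' A.F Ω']
    (σ : E →ₐ[K] E') (hσ : Function.Surjective σ)
    (h1 : ∀ c : k, ∃ c' : k', σ (algebraMap k E c) = algebraMap k' E' c')
    (h2 : ∀ c' : k', ∃ c : k, σ (algebraMap k E c) = algebraMap k' E' c')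
    (f : A.F) (P : A.Pt E) :
    A.hgt k' Ω' f (A.map (IsScalarTower.toAlgHom K E' Ω') (A.map σ P)) =
      A.hgt k Ω f (A.map (IsScalarTower.toAlgHom K E Ω) P) := by
  have hr : ((IsScalarTower.toAlgHom K E' Ω').comp σ).fieldRange =
      (IsScalarTower.toAlgHom K E' Ω').fieldRange := by
    ext x
    constructor
    · rintro ⟨y, rfl⟩; exact ⟨σ y, rfl⟩
    · rintro ⟨y, rfl⟩
      obtain ⟨z, rfl⟩ := hσ y
      exact ⟨z, rfl⟩
  obtain ⟨θ, h3, h4⟩ := A.exists_bcHom (Ω := Ω) ((IsScalarTower.toAlgHom K E' Ω').comp σ)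
    (A.gpt Ω') (by rw [hr]; exact A.gen_gpt E' Ω')
  have hθ : Function.Surjective θ := by
    intro z
    refine A.br_mem_field (E := E') θ.fieldRange (fun e => ?_) ?_ z
    · obtain ⟨y, rfl⟩ := hσ e
      exact ⟨algebraMap E Ω y, h3 y⟩
    · rw [← h4, A.fd_map]
      rintro _ ⟨y, _, rfl⟩
      exact ⟨y, rfl⟩
  have h5 : A.map θ (A.map (IsScalarTower.toAlgHom K E Ω) P) =
      A.map (IsScalarTower.toAlgHom K E' Ω') (A.map σ P) := by
    rw [← A.map_comp, ← A.map_comp]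
    congr 1
    ext x
    exact h3 x
  rw [← hd_eq_hgt, ← hd_eq_hgt, ← h5, ← h4]
  apply A.hd_map θ hθ
  · intro c
    obtain ⟨c', hc'⟩ := h1 c
    refine ⟨c', ?_⟩
    rw [IsScalarTower.algebraMap_apply k E Ω, h3, IsScalarTower.algebraMap_apply k' E' Ω', ← hc']
    rfl
  · intro c'
    obtain ⟨c, hc⟩ := h2 c'
    refine ⟨c, ?_⟩
    rw [IsScalarTower.algebraMap_apply k E Ω, h3, IsScalarTower.algebraMap_apply k' E' Ω', ← hc]
    rfl

/-- independence of `Ω = E(a)` -/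
theorem hgt_indep {Ω' : Type u} [Field Ω'] [Algebra E Ω'] [Algebra K Ω'] [Algebra k Ω']
    [IsScalarTower K E Ω'] [IsScalarTower k E Ω'] [IsScalarTower K k Ω'] [Algebra A.F Ω']
    [IsScalarTower K A.F Ω'] [BC K E A.F Ω'] (f : A.F) (P : A.Pt E) :
    A.hgt k Ω' f (A.map (IsScalarTower.toAlgHom K E Ω') P) =
      A.hgt k Ω f (A.map (IsScalarTower.toAlgHom K E Ω) P) := by
  have h := A.hgt_iso (k := k) (k' := k) (Ω := Ω) (Ω' := Ω') (AlgHom.id K E) (fun x => ⟨x, rfl⟩)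
    (fun c => ⟨c, rfl⟩) (fun c => ⟨c, rfl⟩) f P
  rwa [A.map_id] at h

theorem hgt_aut (f : A.F) (σ : E ≃ₐ[k] E) (P : A.Pt E) :
    A.hgt k Ω f (A.map (IsScalarTower.toAlgHom K E Ω)
      (A.map (σ.toAlgHom.restrictScalars K) P)) =
      A.hgt k Ω f (A.map (IsScalarTower.toAlgHom K E Ω) P) :=
  A.hgt_iso (k := k) (k' := k) (Ω := Ω) (Ω' := Ω) (σ.toAlgHom.restrictScalars K)
    σ.surjective (fun c => ⟨c, σ.commutes c⟩) (fun c => ⟨c, σ.commutes c⟩) f P

theorem hgt_neg {f : A.F} (hf : A.Even f) (P : A.Pt E) :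
    A.hgt k Ω f (A.map (IsScalarTower.toAlgHom K E Ω) (-P)) =
      A.hgt k Ω f (A.map (IsScalarTower.toAlgHom K E Ω) P) := by
  obtain ⟨θ, h1, h2, h3⟩ := A.exists_bcAut (E := E) (Ω := Ω) (-A.gpt Ω)
    (A.br_gen_neg (A.gen_gpt E Ω)) (by rw [A.fd_neg]; exact le_sup_right)
  have h4 := A.hd_map (k := k) (k' := k) θ h1
    (fun c => ⟨c, by rw [IsScalarTower.algebraMap_apply k E Ω, h2]⟩)
    (fun c => ⟨c, by rw [IsScalarTower.algebraMap_apply k E Ω, h2]⟩) (A.gpt Ω) f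
    (A.map (IsScalarTower.toAlgHom K E Ω) P)
  rw [← hd_eq_hgt, ← hd_eq_hgt, ← h4, h3, A.br_map_fix θ h2, hd, hd]
  have h5 := A.hk_neg (k := k) hf (-A.gpt Ω) (A.map (IsScalarTower.toAlgHom K E Ω) P)
  rw [neg_neg, ← A.map_neg] at h5
  rw [h5]

theorem hgt_add_const [IsAlgClosed K] (f : A.F) (P : A.Pt E) (c : A.Pt k) :
    A.hgt k Ω f (A.map (IsScalarTower.toAlgHom K E Ω)
      (P + A.map (IsScalarTower.toAlgHom K k E) c)) =
      A.hgt k Ω f (A.map (IsScalarTower.toAlgHom K E Ω) P) := by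
  set cΩ : A.Pt Ω := A.map (IsScalarTower.toAlgHom K k Ω) c with hcΩ
  have hc1 : A.map (IsScalarTower.toAlgHom K E Ω) (A.map (IsScalarTower.toAlgHom K k E) c) =
      cΩ := by
    rw [← A.map_comp]
    congr 1
    ext x
    exact (IsScalarTower.algebraMap_apply k E Ω x).symm
  have hfd : ∀ x ∈ A.fd cΩ, x ∈ Set.range (algebraMap k Ω) := by
    intro x hx
    rw [hcΩ, A.fd_map] at hx
    obtain ⟨y, _, rfl⟩ := hx
    exact ⟨y, rfl⟩
  have hfd' : A.fd cΩ ≤ (IsScalarTower.toAlgHom K E Ω).fieldRange := by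
    intro x hx
    obtain ⟨y, rfl⟩ := hfd x hx
    exact ⟨algebraMap k E y, (IsScalarTower.algebraMap_apply k E Ω y).symm⟩
  obtain ⟨θ, h1, h2, h3⟩ := A.exists_bcAut (E := E) (Ω := Ω) (A.gpt Ω - cΩ)
    (A.br_gen_sub (A.gen_gpt E Ω) hfd') (by
      rw [A.sup_fd_sub hfd']; exact le_sup_right)
  have h4 := A.hd_map (k := k) (k' := k) θ h1
    (fun c => ⟨c, by rw [IsScalarTower.algebraMap_apply k E Ω, h2]⟩)
    (fun c => ⟨c, by rw [IsScalarTower.algebraMap_apply k E Ω, h2]⟩) (A.gpt Ω) f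
    (A.map (IsScalarTower.toAlgHom K E Ω) P)
  rw [← hd_eq_hgt, ← hd_eq_hgt, ← h4, h3, A.br_map_fix θ h2, A.map_add, hc1, hd, hd]
  have h5 := A.hk_add (k := k) (a := A.gpt Ω - cΩ) (c := cΩ) f
    (A.map (IsScalarTower.toAlgHom K E Ω) P) hfd
  rw [sub_add_cancel] at h5
  rw [h5]

end Main

end Fermat.Agent.AVn.AVar

end
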