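import Fermat.Agent.AVG.Gauss

/-!
# The Gauss extension: uniqueness and discreteness
-/

set_option autoImplicit false
set_option linter.unusedSectionVars false

noncomputable section

open Module
open scoped TensorProduct

namespace Fermat.Agent.AVG

open Fermat.Agent.BaseChangeFF

namespace RDk

variable {K₀ K κ : Type*} [Field K₀] [Field K] [Algebra K₀ K] [Field κ] [Algebra K₀ κ]
  (𝔯 : RDk K₀ K κ)

section Uniq

variable {F₀ F F₁ : Type*} [Field F₀] [Algebra K₀ F₀]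
  [Field F] [Algebra K F] [Algebra F₀ F] [Algebra K₀ F] [IsScalarTower K₀ K F]
  [IsScalarTower K₀ F₀ F]
  [Field F₁] [Algebra κ F₁] [Algebra F₀ F₁] [Algebra K₀ F₁] [IsScalarTower K₀ κ F₁]
  [IsScalarTower K₀ F₀ F₁]
  [hBC : BC K₀ K F₀ F] [hBC₁ : BC K₀ κ F₀ F₁]
  {V : ValuationSubring F} {T : Type*} [Field T] (ρ : V →+* T) (α : κ →+* T) (β : F₀ →+* T)

/-- `V` extends the valuation ring `A` and contains `F₀`, with residue maps `α`, `β`. -/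
structure Ext : Prop where
  ker : ∀ x : V, ρ x = 0 ↔ ¬ IsUnit x
  memA : ∀ a ∈ 𝔯.A, algebraMap K F a ∈ V
  memF : ∀ y : F₀, algebraMap F₀ F y ∈ V
  resA : ∀ (a : K) (ha : a ∈ 𝔯.A), ρ ⟨algebraMap K F a, memA a ha⟩ = α (𝔯.π ⟨a, ha⟩)
  resF : ∀ y : F₀, ρ ⟨algebraMap F₀ F y, memF y⟩ = β y
  /-- `κ ⊗ F₀ → T` is injective -/
  lin : ∀ (n : ℕ) (f : Fin n → F₀), LinearIndependent K₀ f → ∀ c : Fin n → κ,
    ∑ i, α (c i) * β (f i) = 0 → c = 0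

variable {ρ α β} {𝔯} (E : 𝔯.Ext ρ α β)
include E

omit hBC hBC₁ [Field F₁] [Algebra κ F₁] [Algebra F₀ F₁] [Algebra K₀ F₁] [IsScalarTower K₀ κ F₁]
  [IsScalarTower K₀ F₀ F₁] in
theorem Ext.ψ_mem (t : 𝔯.A ⊗[K₀] F₀) : 𝔯.ψ F₀ F t ∈ V := by
  induction t using TensorProduct.induction_on with
  | zero => rw [map_zero]; exact V.zero_mem
  | add x y hx hy => rw [map_add]; exact V.add_mem _ _ hx hy
  | tmul a x =>
    rw [ψ_tmul]
    exact V.mul_mem _ _ (E.memA _ a.2) (E.memF x)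

/-- residues in coordinates -/
def coordT {ι : Type*} (b : Basis ι K₀ F₀) (α : κ →+* T) (β : F₀ →+* T) (w : ι →₀ κ) : T :=
  w.sum fun i c => α c * β (b i)

omit E in
theorem coordT_eq_zero
    (hlin : ∀ (n : ℕ) (f : Fin n → F₀), LinearIndependent K₀ f → ∀ c : Fin n → κ,
      ∑ i, α (c i) * β (f i) = 0 → c = 0)
    {ι : Type*} (b : Basis ι K₀ F₀) {w : ι →₀ κ} (h : coordT b α β w = 0) : w = 0 := by
  classical
  rw [coordT, Finsupp.sum] at h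
  let e := w.support.equivFin
  have h1 := hlin w.support.card (fun i => b (e.symm i))
    (b.linearIndependent.comp (fun i => ((e.symm i : w.support) : ι))
      (Subtype.val_injective.comp e.symm.injective)) (fun i => w (e.symm i)) (by
        rw [← h, ← Finset.sum_coe_sort w.support (fun i => α (w i) * β (b i))]
        exact Equiv.sum_comp e.symm (fun i : w.support => α (w i) * β (b i)))
  ext i
  by_cases hi : i ∈ w.support
  · have := congrFun h1 (e ⟨i, hi⟩)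
    simpa using this
  · simpa using hi

theorem Ext.ρ_ψ_elt {ι : Type*} (b : Basis ι K₀ F₀) (d : ι →₀ 𝔯.A) :
    ρ ⟨𝔯.ψ F₀ F (𝔯.elt b d), E.ψ_mem _⟩ = coordT b α β (𝔯.dn d) := by
  classical
  have h1 : (⟨𝔯.ψ F₀ F (𝔯.elt b d), E.ψ_mem _⟩ : V) =
      ∑ i ∈ d.support, ⟨algebraMap K F (d i : K), E.memA _ (d i).2⟩ *
        ⟨algebraMap F₀ F (b i), E.memF _⟩ := by
    apply Subtype.ext
    rw [AddSubmonoidClass.coe_finsetSum]
    show 𝔯.ψ F₀ F (𝔯.elt b d) = _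
    rw [elt, Finsupp.sum, map_sum]
    rfl
  rw [h1, map_sum, coordT, dn, Finsupp.sum_mapRange_index (by simp), Finsupp.sum]
  refine Finset.sum_congr rfl fun i _ => ?_
  rw [map_mul, E.resA, E.resF]

include hBC₁ in
theorem Ext.ρ_ψ_eq_zero_iff (t : 𝔯.A ⊗[K₀] F₀) :
    ρ ⟨𝔯.ψ F₀ F t, E.ψ_mem t⟩ = 0 ↔ 𝔯.φ F₀ F₁ t = 0 := by
  let b := Module.Basis.ofVectorSpace K₀ F₀
  obtain ⟨d, rfl⟩ := 𝔯.elt_surjective b t
  rw [E.ρ_ψ_elt, φ_elt]
  constructor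
  · intro h
    rw [coordT_eq_zero E.lin b h, map_zero]
  · intro h
    have : 𝔯.dn d = 0 := RD.Φ_injective F₁ b (by rw [h, map_zero])
    rw [this, coordT, Finsupp.sum_zero_index]

variable (F₁)

theorem Ext.le_of_mem {z : F} (hz : z ∈ 𝔯.O F₀ F F₁) : z ∈ V := by
  obtain ⟨t, u, hu, h⟩ := hz
  have hu' : IsUnit (⟨𝔯.ψ F₀ F u, E.ψ_mem u⟩ : V) := by
    by_contra h0
    exact hu ((E.ρ_ψ_eq_zero_iff (F₁ := F₁) u).mp ((E.ker _).mpr h0))
  obtain ⟨⟨w, hw⟩, hw'⟩ := hu'.exists_right_inv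
  have h1 : 𝔯.ψ F₀ F u * w = 1 := congrArg Subtype.val hw'
  have h2 : z = 𝔯.ψ F₀ F t * w := by
    rw [← h, mul_assoc, h1, mul_one]
  rw [h2]
  exact V.mul_mem _ _ (E.ψ_mem t) hw

theorem Ext.ρ_eq_zero_of_res {z : 𝔯.O F₀ F F₁} (hz : 𝔯.res z = 0) :
    ρ ⟨z, E.le_of_mem F₁ z.2⟩ = 0 := by
  obtain ⟨z, t, u, hu, h⟩ := z
  rw [𝔯.res_eq hu h, div_eq_zero_iff, or_iff_left hu] at hz
  have h1 := (E.ρ_ψ_eq_zero_iff (F₁ := F₁) t).mpr hz
  have h2 : (⟨𝔯.ψ F₀ F t, E.ψ_mem t⟩ : V) =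
      ⟨z, E.le_of_mem F₁ ⟨t, u, hu, h⟩⟩ * ⟨𝔯.ψ F₀ F u, E.ψ_mem u⟩ := Subtype.ext h.symm
  rw [h2, map_mul] at h1
  rcases mul_eq_zero.mp h1 with h3 | h3
  · exact h3
  · exact absurd ((E.ρ_ψ_eq_zero_iff (F₁ := F₁) u).mp h3) hu

/-- **Uniqueness of the Gauss extension.** -/
theorem Ext.eq_O : V = 𝔯.O F₀ F F₁ := by
  apply le_antisymm
  · intro x hx
    by_contra hxO
    have hx0 : x ≠ 0 := fun h => hxO (by rw [h]; exact zero_mem _)
    have hinv : x⁻¹ ∈ 𝔯.O F₀ F F₁ := ((𝔯.O F₀ F F₁).mem_or_inv_mem x).resolve_left hxO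
    have h0 : 𝔯.res (⟨x⁻¹, hinv⟩ : 𝔯.O F₀ F F₁) = 0 := by
      rw [𝔯.res_ker]
      intro hu
      obtain ⟨⟨w, hw⟩, hw'⟩ := hu.exists_right_inv
      have h1 : x⁻¹ * w = 1 := congrArg Subtype.val hw'
      have h2 : x = w := by
        field_simp at h1
        exact h1.symm
      exact hxO (h2 ▸ hw)
    have h1 := E.ρ_eq_zero_of_res F₁ h0
    rw [E.ker] at h1
    apply h1
    refine isUnit_iff_exists_inv.mpr ⟨⟨x, hx⟩, ?_⟩
    apply Subtype.ext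
    exact inv_mul_cancel₀ hx0
  · intro x hx
    exact E.le_of_mem F₁ hx

/-- the residue field of the Gauss extension -/
theorem Ext.exists_hom : ∃ j : F₁ →+* T, (∀ z : 𝔯.O F₀ F F₁,
    ρ ⟨z, E.le_of_mem F₁ z.2⟩ = j (𝔯.res z)) ∧ (∀ c : κ, j (algebraMap κ F₁ c) = α c) ∧
    ∀ y : F₀, j (algebraMap F₀ F₁ y) = β y := by
  let Φ : 𝔯.O F₀ F F₁ →+* T := ρ.comp
    { toFun := fun z => ⟨z, E.le_of_mem F₁ z.2⟩
      map_one' := rfl
      map_mul' := fun _ _ => rfl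
      map_zero' := rfl
      map_add' := fun _ _ => rfl }
  have hker : RingHom.ker (𝔯.res (F₀ := F₀) (F := F) (F₁ := F₁)) ≤ RingHom.ker Φ := by
    intro z hz
    exact E.ρ_eq_zero_of_res F₁ hz
  let j : F₁ →+* T := RingHom.liftOfSurjective 𝔯.res (𝔯.res_surj F F₁) ⟨Φ, hker⟩
  have hj : ∀ z : 𝔯.O F₀ F F₁, j (𝔯.res z) = Φ z := fun z =>
    RingHom.liftOfRightInverse_comp_apply _ _ _ ⟨Φ, hker⟩ z
  refine ⟨j, fun z => (hj z).symm, fun c => ?_, fun y => ?_⟩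
  · obtain ⟨a, rfl⟩ := 𝔯.surj c
    have h1 := 𝔯.res_algebraMap_K (F₀ := F₀) F F₁ a.2
    have h2 := hj ⟨_, 𝔯.algebraMap_mem_O_of_mem F F₁ a.2⟩
    rw [h1] at h2
    exact h2.trans (E.resA a a.2)
  · have h1 := 𝔯.res_algebraMap' (F₀ := F₀) (F := F) (F₁ := F₁) y
    have h2 := hj ⟨_, 𝔯.algebraMap_mem_O y⟩
    rw [h1] at h2
    exact h2.trans (E.resF y)

end Uniq

end RDk

end Fermat.Agent.AVG
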